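/-
S18 / Program J — generic local discriminant lemma (Mathlib only).

`discLocal`: over a DVR `O` with uniformiser `ϖ`, let `B` be an `O`-subalgebra of a finite field
extension `L / K = Frac O`, free over `O` on a `K`-basis `b` of `L`.  If there are `r` elements of
`B`, nilpotent modulo `ϖ B` and linearly independent modulo `ϖ B`, and the discriminant of `b` is
not divisible by `ϖ ^ (r + 1)`, then `B` contains every element of `L` integral over `O`.
-/
import Mathlib

set_option autoImplicit false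

namespace Fermat.Agent.S18.H8

open Matrix Polynomial

section MatrixCore

variable {O : Type*} [CommRing O] {ι : Type*} [Fintype ι] [DecidableEq ι]

/-- Row-vector multiplication with a matrix one of whose rows has been replaced. -/
theorem vecMul_updateRow (M : Matrix ι ι O) (i₀ : ι) (ρ w : ι → O) :
    w ᵥ* (M.updateRow i₀ ρ) = w ᵥ* M + w i₀ • (ρ - M i₀) := by
  funext j
  simp only [Matrix.vecMul, dotProduct, Pi.add_apply, Pi.smul_apply, Pi.sub_apply, smul_eq_mul]
  have h : ∀ i, w i * M.updateRow i₀ ρ i j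
      = w i * M i j + (if i = i₀ then w i₀ * (ρ j - M i₀ j) else 0) := by
    intro i
    by_cases hi : i = i₀
    · subst hi; simp [Matrix.updateRow_self]; ring
    · simp [hi]
  rw [Finset.sum_congr rfl (fun i _ => h i), Finset.sum_add_distrib]
  simp

variable [IsDomain O]

/-- The matrix core: if `r` vectors, independent modulo `ϖ`, lie in the left kernel of `M` modulo
`ϖ`, then `ϖ ^ r ∣ det M`; and if `det M = ϖ ^ r * unit`, then every vector of `ϖ O^ι` is the
image under `M` of an element of `ϖ O^ι + ∑ O c_k`. -/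
theorem matrix_core (ϖ : O) (hϖ : Irreducible ϖ) (hunit : ∀ a : O, ¬ ϖ ∣ a → IsUnit a) :
    ∀ (r : ℕ) (M : Matrix ι ι O) (c : Fin r → ι → O),
      (∀ l : Fin r → O, (∀ i, ϖ ∣ ∑ k, l k * c k i) → ∀ k, ϖ ∣ l k) →
      (∀ k j, ϖ ∣ (c k ᵥ* M) j) →
      ϖ ^ r ∣ M.det ∧
        (∀ u : O, IsUnit u → M.det = ϖ ^ r * u → ∀ t : ι → O,
          ∃ (a₀ : ι → O) (l : Fin r → O), (ϖ • a₀ + ∑ k, l k • c k) ᵥ* M = ϖ • t) := by
  intro r
  induction r with
  | zero =>
    intro M c _ _
    refine ⟨by simp, ?_⟩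
    intro u hu hdet t
    have hdetu : IsUnit M.det := by rw [hdet]; simpa using hu
    refine ⟨t ᵥ* M⁻¹, Fin.elim0, ?_⟩
    simp only [Finset.univ_eq_empty, Finset.sum_empty, add_zero]
    rw [Matrix.smul_vecMul, Matrix.vecMul_vecMul, Matrix.nonsing_inv_mul _ hdetu,
      Matrix.vecMul_one]
  | succ r ih =>
    intro M c hind hker
    obtain ⟨i₀, hi₀⟩ : ∃ i₀, ¬ ϖ ∣ c (Fin.last r) i₀ := by
      by_contra hcon
      push Not at hcon
      have h1 := hind (Pi.single (Fin.last r) 1) (by
        intro i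
        simpa [Pi.single_apply] using hcon i) (Fin.last r)
      simp only [Pi.single_eq_same] at h1
      exact hϖ.not_isUnit (isUnit_of_dvd_one h1)
    obtain ⟨ε, hε⟩ := hunit _ hi₀
    choose ρ hρ using fun j => hker (Fin.last r) j
    set M' := M.updateRow i₀ ρ with hM'
    set μ : Fin r → O := fun k => c k.castSucc i₀ * ↑ε⁻¹ with hμ
    set c' : Fin r → ι → O := fun k => c k.castSucc - μ k • c (Fin.last r) with hc'
    have hc'i₀ : ∀ k, c' k i₀ = 0 := by
      intro k
      simp [hc', hμ, ← hε, mul_assoc]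
    have hsum : ∀ (l' : Fin r → O) (i : ι), ∑ k, l' k * c' k i
        = ∑ k, l' k * c k.castSucc i - (∑ k, l' k * μ k) * c (Fin.last r) i := by
      intro l' i
      simp only [hc', Pi.sub_apply, Pi.smul_apply, smul_eq_mul, mul_sub, Finset.sum_sub_distrib,
        Finset.sum_mul, mul_assoc]
    have hind' : ∀ l' : Fin r → O, (∀ i, ϖ ∣ ∑ k, l' k * c' k i) → ∀ k, ϖ ∣ l' k := by
      intro l' hl' k
      have h1 := hind (Fin.snoc l' (-(∑ k, l' k * μ k))) (by
        intro i
        rw [Fin.sum_univ_castSucc]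
        simp only [Fin.snoc_castSucc, Fin.snoc_last]
        have h2 := hl' i
        rw [hsum] at h2
        convert h2 using 1
        ring) k.castSucc
      simpa using h1
    have hlastM : c (Fin.last r) ᵥ* M = ϖ • ρ := by
      funext j; simp [hρ j]
    have hker' : ∀ k j, ϖ ∣ (c' k ᵥ* M') j := by
      intro k j
      rw [hM', vecMul_updateRow, hc'i₀ k, zero_smul, add_zero]
      simp only [hc', Matrix.sub_vecMul, Matrix.smul_vecMul, Pi.sub_apply, Pi.smul_apply,
        smul_eq_mul]
      exact dvd_sub (hker _ j) (Dvd.dvd.mul_left (hker _ j) _)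
    obtain ⟨ihdvd, ihsurj⟩ := ih M' c' hind' hker'
    have hdet : (ε : O) * M.det = ϖ * M'.det := by
      have h1 := Matrix.det_updateRow_sum M i₀ (c (Fin.last r))
      rw [← Matrix.vecMul_eq_sum, hlastM, Matrix.det_updateRow_smul, smul_eq_mul, ← hε] at h1
      exact h1.symm
    refine ⟨?_, ?_⟩
    · have h1 : ϖ ^ (r + 1) ∣ (ε : O) * M.det := by
        rw [hdet, pow_succ']; exact mul_dvd_mul_left _ ihdvd
      exact (Units.dvd_mul_left).1 (by rwa [mul_comm] at h1)
    · intro u hu hMdet t
      have hM'det : M'.det = ϖ ^ r * (ε * u) := by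
        apply mul_left_cancel₀ hϖ.ne_zero
        rw [← hdet, hMdet]; ring
      obtain ⟨a₀', l', hal⟩ := ihsurj (ε * u) (ε.isUnit.mul hu) hM'det t
      refine ⟨Function.update a₀' i₀ 0, Fin.snoc l' (a₀' i₀ - ∑ k, l' k * μ k), ?_⟩
      have hvec : ϖ • Function.update a₀' i₀ 0
            + ∑ k, (Fin.snoc l' (a₀' i₀ - ∑ k, l' k * μ k) : Fin (r + 1) → O) k • c k
          = (ϖ • a₀' + ∑ k, l' k • c' k) - (ϖ * a₀' i₀) • Pi.single i₀ 1
            + a₀' i₀ • c (Fin.last r) := by
        funext i
        rw [Fin.sum_univ_castSucc]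
        simp only [Fin.snoc_castSucc, Fin.snoc_last, Pi.add_apply, Pi.sub_apply, Pi.smul_apply,
          smul_eq_mul, Finset.sum_apply]
        rw [hsum l' i]
        by_cases hi : i = i₀
        · subst hi
          simp only [Function.update_self, Pi.single_eq_same]
          ring
        · simp only [Function.update_of_ne hi, Pi.single_eq_of_ne hi]
          ring
      have ha'i₀ : (ϖ • a₀' + ∑ k, l' k • c' k) i₀ = ϖ * a₀' i₀ := by
        simp [hc'i₀]
      rw [hvec, Matrix.add_vecMul, Matrix.sub_vecMul, Matrix.smul_vecMul, Matrix.smul_vecMul,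
        Matrix.single_one_vecMul, hlastM, ← hal, hM', vecMul_updateRow, ha'i₀]
      funext j
      simp only [Pi.add_apply, Pi.sub_apply, Pi.smul_apply, smul_eq_mul, Matrix.row]
      ring

end MatrixCore

section TraceLemma

variable {O K L : Type*} [CommRing O] [IsDomain O] [IsDiscreteValuationRing O]
  [Field K] [Algebra O K] [IsFractionRing O K]
  [Field L] [Algebra K L] [Algebra O L] [IsScalarTower O K L] [FiniteDimensional K L]

theorem isUnit_of_not_dvd {ϖ : O} (hϖ : Irreducible ϖ) (a : O) (ha : ¬ ϖ ∣ a) : IsUnit a := by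
  by_contra hna
  have h1 : a ∈ IsLocalRing.maximalIdeal O := (IsLocalRing.mem_maximalIdeal a).2 hna
  rw [hϖ.maximalIdeal_eq, Ideal.mem_span_singleton] at h1
  exact ha h1

/-- If `z ^ m = ϖ • w` with `w` integral over `O` (`m > 0`), then the trace of `z` is divisible
by `ϖ`. -/
theorem trace_dvd_of_pow_eq_smul {ϖ : O} (hϖ : Irreducible ϖ) {z w : L} {m : ℕ} (hm : 0 < m)
    (hzw : z ^ m = ϖ • w) (hw : IsIntegral O w) :
    ∃ t : O, Algebra.trace K L z = algebraMap O K (ϖ * t) := by
  classical
  have hinj : Function.Injective (algebraMap O K) := IsFractionRing.injective O K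
  have hinjL : Function.Injective (algebraMap O L) := by
    rw [IsScalarTower.algebraMap_eq O K L]
    exact (algebraMap K L).injective.comp hinj
  have : Module.IsTorsionFree O L := Module.isTorsionFree_iff_algebraMap_injective.2 hinjL
  have hzint : IsIntegral O z := by
    apply IsIntegral.of_pow hm
    rw [hzw]
    exact hw.smul ϖ
  set P1 := scaleRoots (minpoly O w) ϖ with hP1
  have hP1root : aeval (z ^ m) P1 = 0 := by
    rw [hzw, Algebra.smul_def]
    exact scaleRoots_aeval_eq_zero (minpoly.aeval O w)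
  set Q := expand O m P1 with hQ
  have hQroot : aeval z Q = 0 := by rw [hQ, expand_aeval]; exact hP1root
  have hdvd : minpoly O z ∣ Q := minpoly.isIntegrallyClosed_dvd hzint hQroot
  let res := IsLocalRing.residue O
  have hres : res ϖ = 0 := by
    rw [IsLocalRing.residue_eq_zero_iff, hϖ.maximalIdeal_eq]
    exact Ideal.mem_span_singleton_self ϖ
  have hP1map : P1.map res = X ^ (minpoly O w).natDegree := by
    ext i
    rw [coeff_map, hP1, coeff_scaleRoots, coeff_X_pow]
    by_cases hi : i = (minpoly O w).natDegree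
    · subst hi
      simp [(minpoly.monic hw).coeff_natDegree]
    · rw [if_neg hi]
      by_cases hlt : i < (minpoly O w).natDegree
      · have h0 : res (ϖ ^ ((minpoly O w).natDegree - i)) = 0 := by
          rw [map_pow, hres, zero_pow (by omega)]
        rw [map_mul, h0, mul_zero]
      · rw [coeff_eq_zero_of_natDegree_lt (by omega)]; simp
  have hQmap : Q.map res = X ^ ((minpoly O w).natDegree * m) := by
    rw [hQ, map_expand, hP1map, map_pow, expand_X, ← pow_mul, mul_comm]
  have hdvd' : (minpoly O z).map res ∣ X ^ ((minpoly O w).natDegree * m) := by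
    rw [← hQmap]; exact Polynomial.map_dvd res hdvd
  obtain ⟨i, -, hassoc⟩ := (dvd_prime_pow prime_X _).1 hdvd'
  have hmon : ((minpoly O z).map res).Monic := (minpoly.monic hzint).map res
  have heq : (minpoly O z).map res = X ^ i := eq_of_monic_of_associated hmon (monic_X_pow i) hassoc
  have hnext : res (minpoly O z).nextCoeff = 0 := by
    rw [← nextCoeff_map_eq_of_isUnit_leadingCoeff res
      (by rw [(minpoly.monic hzint).leadingCoeff]; exact isUnit_one), heq]
    rw [nextCoeff]
    split_ifs with h0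
    · rfl
    · rw [natDegree_X_pow] at h0 ⊢
      rw [coeff_X_pow, if_neg (by omega)]
  obtain ⟨q, hq⟩ : ϖ ∣ (minpoly O z).nextCoeff := by
    rw [IsLocalRing.residue_eq_zero_iff, hϖ.maximalIdeal_eq, Ideal.mem_span_singleton] at hnext
    exact hnext
  refine ⟨-(Module.finrank (IntermediateField.adjoin K {z}) L : O) * q, ?_⟩
  rw [trace_eq_finrank_mul_minpoly_nextCoeff, minpoly.isIntegrallyClosed_eq_field_fractions' K hzint,
    nextCoeff_map hinj, hq]
  simp only [map_mul, map_neg, map_natCast]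
  ring

end TraceLemma

section Main

variable {O K L : Type*} [CommRing O] [IsDomain O] [IsDiscreteValuationRing O]
  [Field K] [Algebra O K] [IsFractionRing O K]
  [Field L] [Algebra K L] [Algebra O L] [IsScalarTower O K L] [FiniteDimensional K L]

/-- The elements of `B` that are nilpotent modulo `ϖ B`, as an `O`-submodule of `L`. -/
def nilModSubmodule (B : Subalgebra O L) (ϖ : O) : Submodule O L :=
  Submodule.map B.val.toLinearMap
    ((Ideal.span {algebraMap O B ϖ}).radical.restrictScalars O)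

omit [IsDomain O] [IsDiscreteValuationRing O] in
theorem mem_nilModSubmodule_iff (B : Subalgebra O L) (ϖ : O) (z : L) :
    z ∈ nilModSubmodule B ϖ ↔ z ∈ B ∧ ∃ m : ℕ, ∃ w ∈ B, z ^ m = ϖ • w := by
  constructor
  · rintro ⟨z', hz', rfl⟩
    refine ⟨z'.2, ?_⟩
    obtain ⟨m, hm⟩ := hz'
    rw [Ideal.mem_span_singleton] at hm
    obtain ⟨w, hw⟩ := hm
    refine ⟨m, w.1, w.2, ?_⟩
    have h1 := congrArg Subtype.val hw
    simpa [Algebra.smul_def] using h1
  · rintro ⟨hz, m, w, hw, h⟩
    refine ⟨⟨z, hz⟩, ⟨m, Ideal.mem_span_singleton.2 ⟨⟨w, hw⟩, ?_⟩⟩, rfl⟩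
    apply Subtype.ext
    simpa [Algebra.smul_def] using h

/-- **Local discriminant lemma.** -/
theorem discLocal
    (B : Subalgebra O L) {ι : Type*} [Fintype ι] [DecidableEq ι] (b : Module.Basis ι K L)
    (hbB : ∀ i, b i ∈ B) (hBb : ∀ x ∈ B, ∃ c : ι → O, x = ∑ i, c i • b i)
    (ϖ : O) (hϖ : Irreducible ϖ) (r : ℕ) (y : Fin r → L)
    (hyB : ∀ k, y k ∈ B) (hyNil : ∀ k, ∃ m : ℕ, ∃ w ∈ B, y k ^ m = ϖ • w)
    (hyInd : ∀ c : Fin r → O, (∃ w ∈ B, ∑ k, c k • y k = ϖ • w) → ∀ k, ϖ ∣ c k)
    (d : O) (hd : algebraMap O K d = Algebra.discr K b) (hdr : ¬ ϖ ^ (r + 1) ∣ d) :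
    ∀ x : L, IsIntegral O x → x ∈ B := by
  classical
  have hinj : Function.Injective (algebraMap O K) := IsFractionRing.injective O K
  have hϖK : algebraMap O K ϖ ≠ 0 := (map_ne_zero_iff _ hinj).2 hϖ.ne_zero
  have hBfg : (Subalgebra.toSubmodule B).FG := by
    refine ⟨Finset.univ.image b, ?_⟩
    apply le_antisymm
    · rw [Submodule.span_le]
      intro x hx
      simp only [Finset.coe_image, Finset.coe_univ, Set.image_univ, Set.mem_range] at hx
      obtain ⟨i, rfl⟩ := hx
      exact hbB i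
    · intro x hx
      obtain ⟨c, rfl⟩ := hBb x hx
      exact Submodule.sum_mem _ (fun i _ => Submodule.smul_mem _ _
        (Submodule.subset_span (by simp)))
  have hBint : ∀ x ∈ B, IsIntegral O x := fun x hx => IsIntegral.of_mem_of_fg B hBfg x hx
  have htr : ∀ x : L, IsIntegral O x → ∃ t : O, algebraMap O K t = Algebra.trace K L x := by
    intro x hx
    exact IsIntegrallyClosed.isIntegral_iff.1 (Algebra.isIntegral_trace hx)
  have hunit := isUnit_of_not_dvd hϖ
  have hm0 : ∀ (z w : L) (m : ℕ), z ^ m = ϖ • w → IsIntegral O w → 0 < m := by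
    intro z w m h hw
    by_contra h0
    have hm : m = 0 := by omega
    subst hm
    rw [pow_zero] at h
    have h1 : algebraMap K L (algebraMap O K ϖ) * w = 1 := by
      rw [← IsScalarTower.algebraMap_apply, ← Algebra.smul_def]; exact h.symm
    have hw' : w = algebraMap K L (algebraMap O K ϖ)⁻¹ := by
      have h2 : algebraMap K L (algebraMap O K ϖ) ≠ 0 :=
        (map_ne_zero_iff _ (algebraMap K L).injective).2 hϖK
      rw [map_inv₀]
      exact eq_inv_of_mul_eq_one_right h1
    have h3 : IsIntegral O ((algebraMap O K ϖ)⁻¹) := by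
      rw [hw'] at hw; exact (isIntegral_algebraMap_iff (algebraMap K L).injective).1 hw
    obtain ⟨t, ht⟩ := IsIntegrallyClosed.isIntegral_iff.1 h3
    have h4 : ϖ * t = 1 := hinj (by rw [map_mul, ht, map_one]; exact mul_inv_cancel₀ hϖK)
    exact hϖ.not_isUnit (isUnit_iff_exists_inv.2 ⟨t, h4⟩)
  have htrJ : ∀ (z w : L) (m : ℕ), z ^ m = ϖ • w → IsIntegral O w →
      ∃ t : O, Algebra.trace K L z = algebraMap O K (ϖ * t) :=
    fun z w m h hw => trace_dvd_of_pow_eq_smul hϖ (hm0 z w m h hw) h hw
  -- Gram matrix over `O`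
  have hG : ∀ i j, ∃ g : O, algebraMap O K g = Algebra.trace K L (b i * b j) :=
    fun i j => htr _ (hBint _ (B.mul_mem (hbB i) (hbB j)))
  choose G hGe using hG
  let GO : Matrix ι ι O := Matrix.of G
  have hGmap : GO.map (algebraMap O K) = Algebra.traceMatrix K b := by
    ext i j
    simp [GO, Algebra.traceMatrix_apply, hGe, Algebra.traceForm_apply]
  have hdet : GO.det = d := by
    apply hinj
    rw [hd, Algebra.discr_def, ← hGmap, RingHom.map_det]
    rfl
  choose cy hcy using fun k => hBb (y k) (hyB k)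
  have hcomb : ∀ (a₀ : ι → O) (l : Fin r → O),
      ∑ j, (ϖ • a₀ + ∑ k, l k • cy k) j • b j = ϖ • (∑ j, a₀ j • b j) + ∑ k, l k • y k := by
    intro a₀ l
    have h1 : ∀ k, l k • y k = ∑ j, (l k * cy k j) • b j := by
      intro k
      conv_lhs => rw [hcy k]
      rw [Finset.smul_sum]
      exact Finset.sum_congr rfl (fun j _ => by rw [mul_smul])
    rw [Finset.sum_congr rfl (fun k _ => h1 k), Finset.sum_comm, Finset.smul_sum,
      ← Finset.sum_add_distrib]
    refine Finset.sum_congr rfl (fun j _ => ?_)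
    simp only [Pi.add_apply, Pi.smul_apply, Finset.sum_apply, smul_eq_mul, add_smul, mul_smul,
      Finset.sum_smul]
  have hind : ∀ l : Fin r → O, (∀ i, ϖ ∣ ∑ k, l k * cy k i) → ∀ k, ϖ ∣ l k := by
    intro l hl
    choose q hq using hl
    apply hyInd l
    refine ⟨∑ i, q i • b i, B.sum_mem (fun i _ => B.smul_mem (hbB i) _), ?_⟩
    have h1 := hcomb 0 l
    simp only [smul_zero, zero_add, Pi.zero_apply, zero_smul, Finset.sum_const_zero] at h1
    rw [← h1, Finset.smul_sum]
    refine Finset.sum_congr rfl (fun j _ => ?_)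
    simp only [Finset.sum_apply, Pi.smul_apply, smul_eq_mul, hq j, mul_smul]
  have htrv : ∀ (v : ι → O) (j : ι),
      Algebra.trace K L ((∑ i, v i • b i) * b j) = algebraMap O K ((v ᵥ* GO) j) := by
    intro v j
    simp only [Matrix.vecMul, dotProduct, GO, Matrix.of_apply, map_sum, map_mul, hGe,
      Finset.sum_mul, smul_mul_assoc]
    refine Finset.sum_congr rfl (fun i _ => ?_)
    rw [← IsScalarTower.algebraMap_smul K (v i) (b i * b j), map_smul, smul_eq_mul]
  have hker : ∀ k j, ϖ ∣ (cy k ᵥ* GO) j := by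
    intro k j
    obtain ⟨m, w, hw, hyw⟩ := hyNil k
    obtain ⟨t, ht⟩ := htrJ (y k * b j) (w * b j ^ m) m (by rw [mul_pow, hyw, smul_mul_assoc])
      (hBint _ (B.mul_mem hw (B.pow_mem (hbB j) m)))
    refine ⟨t, hinj ?_⟩
    rw [← htrv, ← hcy, ht]
  obtain ⟨hdvd, hsurj⟩ := matrix_core ϖ hϖ hunit r GO cy hind hker
  obtain ⟨u, hu⟩ := hdvd
  have huu : IsUnit u := by
    apply hunit
    intro hdu
    apply hdr
    rw [← hdet, hu, pow_succ]
    exact mul_dvd_mul_left _ hdu
  have hsurj' := hsurj u huu hu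
  intro x hx
  have hxrepr : x = ∑ j, b.repr x j • b j := (b.sum_repr x).symm
  have hcoord : ∀ i, ∃ t : O, b.repr x i = algebraMap O K t := by
    intro i
    obtain ⟨a₀, l, hal⟩ := hsurj' (Pi.single i 1)
    set v : ι → O := ϖ • a₀ + ∑ k, l k • cy k with hv
    set y' : L := ∑ j, v j • b j with hy'
    have hy'J : y' ∈ nilModSubmodule B ϖ := by
      rw [hy', hv, hcomb]
      refine Submodule.add_mem _ ?_ (Submodule.sum_mem _ (fun k _ => Submodule.smul_mem _ _ ?_))
      · rw [mem_nilModSubmodule_iff]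
        have hβ : ∑ j, a₀ j • b j ∈ B := B.sum_mem (fun j _ => B.smul_mem (hbB j) _)
        exact ⟨B.smul_mem hβ _, 1, _, hβ, pow_one _⟩
      · rw [mem_nilModSubmodule_iff]
        exact ⟨hyB k, hyNil k⟩
    obtain ⟨-, M, w, hw, hy'w⟩ := (mem_nilModSubmodule_iff B ϖ y').1 hy'J
    obtain ⟨t, ht⟩ := htrJ (x * y') (x ^ M * w) M (by rw [mul_pow, hy'w, mul_smul_comm])
      ((hx.pow M).mul (hBint _ hw))
    have h3 : ∀ j, Algebra.trace K L (b j * y')
        = algebraMap O K ϖ * (if j = i then 1 else 0) := by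
      intro j
      rw [mul_comm, hy', htrv, hal]
      simp only [Pi.smul_apply, Pi.single_apply, smul_eq_mul, map_mul]
      split_ifs <;> simp
    have h2 : Algebra.trace K L (x * y') = algebraMap O K ϖ * b.repr x i := by
      conv_lhs => rw [hxrepr]
      rw [Finset.sum_mul, map_sum]
      simp_rw [smul_mul_assoc, map_smul, h3, smul_eq_mul]
      simp [mul_comm]
    refine ⟨t, ?_⟩
    apply mul_left_cancel₀ hϖK
    rw [← h2, ht, map_mul]
  choose t ht using hcoord
  rw [hxrepr]
  refine B.sum_mem (fun j _ => ?_)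
  rw [ht j, IsScalarTower.algebraMap_smul]
  exact B.smul_mem (hbB j) _

end Main

end Fermat.Agent.S18.H8
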