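/-
S18 / Program J, second core (route #1088), Leaf A (abstract Theorem D): generic pieces
L0 (the base `A₀[X] / ϖ` is a PID), L5b (unramified primes are radical up to a factor prime to
`q`), L6 (the fibre `C / (X - a)` is `A₀`-free).  helper8.
-/
import Mathlib

set_option autoImplicit false

open Polynomial

namespace Fermat.Agent.S18.H8

section Base

variable {A₀ : Type*} [CommRing A₀] [IsDomain A₀] [IsDiscreteValuationRing A₀]

/-- L0: `A₀[X] / ϖ` is a principal ideal domain. -/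
theorem quotient_isDomain_isPrincipalIdealRing (ϖ : A₀) (hϖ : Irreducible ϖ) :
    IsDomain (A₀[X] ⧸ Ideal.span {(C ϖ : A₀[X])}) ∧
      IsPrincipalIdealRing (A₀[X] ⧸ Ideal.span {(C ϖ : A₀[X])}) := by
  have hmax : (Ideal.span {ϖ}).IsMaximal := by
    rw [← hϖ.maximalIdeal_eq]; infer_instance
  let _ := Ideal.Quotient.field (Ideal.span {ϖ})
  have hmap : (Ideal.span {ϖ}).map (C : A₀ →+* A₀[X]) = Ideal.span {(C ϖ : A₀[X])} := by
    rw [Ideal.map_span, Set.image_singleton]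
  let e : (A₀ ⧸ Ideal.span {ϖ})[X] ≃+* A₀[X] ⧸ Ideal.span {(C ϖ : A₀[X])} :=
    (Ideal.polynomialQuotientEquivQuotientPolynomial (Ideal.span {ϖ})).trans
      (Ideal.quotEquivOfEq hmap)
  exact ⟨e.symm.toMulEquiv.isDomain _, IsPrincipalIdealRing.of_surjective e.toRingHom e.surjective⟩

/-- A one-unit `1 + ϖ y` of a DVR is a unit. -/
theorem isUnit_of_dvd_sub_one {ϖ : A₀} (hϖ : Irreducible ϖ) {x : A₀} (h : ϖ ∣ x - 1) :
    IsUnit x := by
  by_contra hx
  have h1 : x ∈ IsLocalRing.maximalIdeal A₀ := (IsLocalRing.mem_maximalIdeal x).2 hx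
  have h2 : x - 1 ∈ IsLocalRing.maximalIdeal A₀ := by
    rw [hϖ.maximalIdeal_eq, Ideal.mem_span_singleton]; exact h
  have h3 : (1 : A₀) ∈ IsLocalRing.maximalIdeal A₀ := by
    have h4 := Ideal.sub_mem _ h1 h2
    simp only [sub_sub_cancel] at h4
    exact h4
  exact (IsLocalRing.mem_maximalIdeal (1 : A₀)).1 h3 isUnit_one

end Base

section Concrete

variable {A₀ : Type*} [CommRing A₀] [IsDomain A₀] [IsDiscreteValuationRing A₀]
  {C' : Type*} [CommRing C'] [IsDomain C'] [Algebra A₀[X] C'] [Module.Finite A₀[X] C']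
  [Module.IsTorsionFree A₀[X] C'] [IsIntegrallyClosed C']

/-- The `A₀`-algebra structure on `C'` (through `A₀[X]`). -/
@[reducible] noncomputable def algBase (A₀ : Type*) [CommRing A₀] (C' : Type*) [CommRing C']
    [Algebra A₀[X] C'] : Algebra A₀ C' :=
  ((algebraMap A₀[X] C').comp (C : A₀ →+* A₀[X])).toAlgebra

omit [IsDomain A₀] [IsDiscreteValuationRing A₀] [IsDomain C'] [Module.Finite A₀[X] C']
  [Module.IsTorsionFree A₀[X] C'] [IsIntegrallyClosed C'] in
/-- In the fibre `C' / (X - a)` the polynomial `α` acts as the scalar `α(a)`. -/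
theorem mk_smul_eval (a : A₀) (α : A₀[X]) (w : C') :
    letI := algBase A₀ C'
    Ideal.Quotient.mk (Ideal.span {algebraMap A₀[X] C' (X - C a)}) (α • w)
      = (α.eval a) • Ideal.Quotient.mk (Ideal.span {algebraMap A₀[X] C' (X - C a)}) w := by
  let _ := algBase A₀ C'
  obtain ⟨β, hβ⟩ := Polynomial.X_sub_C_dvd_sub_C_eval (a := a) (p := α)
  have h1 : (α.eval a) • Ideal.Quotient.mk (Ideal.span {algebraMap A₀[X] C' (X - C a)}) w
      = Ideal.Quotient.mk (Ideal.span {algebraMap A₀[X] C' (X - C a)})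
          (algebraMap A₀[X] C' (C (α.eval a)) * w) := by
    rw [Algebra.smul_def, map_mul]; rfl
  rw [h1, Algebra.smul_def, Ideal.Quotient.eq, ← sub_mul, ← map_sub, hβ, map_mul, mul_assoc]
  exact Ideal.mul_mem_right _ _ (Ideal.subset_span rfl)

omit [IsIntegrallyClosed C'] [Module.Finite A₀[X] C'] [IsDomain C'] [Module.IsTorsionFree A₀[X] C'] in
/-- L6: the fibre `W = C' / (X - a)` is `A₀`-free on the images of the `c i`. -/
theorem exists_quotient_basis (ϖ : A₀) (hϖ : Irreducible ϖ)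
    {ι : Type*} [Fintype ι] [DecidableEq ι] (c : ι → C') (hc : LinearIndependent A₀[X] c)
    (g : A₀[X]) (hg : ∀ x : C', g • x ∈ Submodule.span A₀[X] (Set.range c))
    (hgϖ : C ϖ ∣ g - 1) (a : A₀) :
    letI := algBase A₀ C'
    ∃ bW : Module.Basis ι A₀ (C' ⧸ Ideal.span {algebraMap A₀[X] C' (X - C a)}),
      ∀ i, bW i = Ideal.Quotient.mk _ (c i) := by
  let _ := algBase A₀ C'
  set IW : Ideal C' := Ideal.span {algebraMap A₀[X] C' (X - C a)} with hIW
  -- `g(a)` is a unit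
  have hga : IsUnit (g.eval a) := by
    apply isUnit_of_dvd_sub_one hϖ
    obtain ⟨h, hh⟩ := hgϖ
    refine ⟨h.eval a, ?_⟩
    have h3 := congrArg (Polynomial.eval a) hh
    simpa only [eval_sub, eval_one, eval_mul, eval_C] using h3
  obtain ⟨ε, hε⟩ := hga
  have hli : LinearIndependent A₀ (fun i => Ideal.Quotient.mk IW (c i)) := by
    rw [Fintype.linearIndependent_iff]
    intro l hl i
    have h1 : Ideal.Quotient.mk IW (∑ i, C (l i) • c i) = 0 := by
      rw [map_sum, ← hl]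
      refine Finset.sum_congr rfl (fun i _ => ?_)
      rw [mk_smul_eval, eval_C]
    rw [Ideal.Quotient.eq_zero_iff_mem, hIW, Ideal.mem_span_singleton] at h1
    obtain ⟨w, hw⟩ := h1
    obtain ⟨ρ, hρ⟩ := (Submodule.mem_span_range_iff_exists_fun _).1 (hg w)
    have h2 : ∑ i, (g * C (l i) - (X - C a) * ρ i) • c i = 0 := by
      have h3 : ∑ i, (g * C (l i)) • c i = g • ∑ i, C (l i) • c i := by
        rw [Finset.smul_sum]
        exact Finset.sum_congr rfl (fun i _ => by rw [mul_smul])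
      have h4 : ∑ i, ((X - C a) * ρ i) • c i = (X - C a) • g • w := by
        rw [← hρ, Finset.smul_sum]
        exact Finset.sum_congr rfl (fun i _ => by rw [mul_smul])
      simp only [sub_smul, Finset.sum_sub_distrib]
      rw [h3, h4, hw, Algebra.smul_def (X - C a), mul_smul_comm, sub_self]
    have h5 := (Fintype.linearIndependent_iff.1 hc) _ h2 i
    have h6 := congrArg (Polynomial.eval a) h5
    simp only [eval_sub, eval_mul, eval_C, eval_X, sub_self, zero_mul, sub_zero, eval_zero] at h6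
    rw [← hε] at h6
    exact (Units.mul_right_eq_zero ε).1 h6
  have hsp : ⊤ ≤ Submodule.span A₀ (Set.range (fun i => Ideal.Quotient.mk IW (c i))) := by
    intro wbar _
    obtain ⟨w, rfl⟩ := Ideal.Quotient.mk_surjective wbar
    obtain ⟨ρ, hρ⟩ := (Submodule.mem_span_range_iff_exists_fun _).1 (hg w)
    have h1 : (g.eval a) • Ideal.Quotient.mk IW w
        = ∑ i, ((ρ i).eval a) • Ideal.Quotient.mk IW (c i) := by
      rw [← mk_smul_eval, ← hρ, map_sum]
      exact Finset.sum_congr rfl (fun i _ => by rw [mk_smul_eval])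
    have h2 : Ideal.Quotient.mk IW w
        = ∑ i, ((↑ε⁻¹ : A₀) * (ρ i).eval a) • Ideal.Quotient.mk IW (c i) := by
      have h3 : Ideal.Quotient.mk IW w = (↑ε⁻¹ : A₀) • ((g.eval a) • Ideal.Quotient.mk IW w) := by
        rw [smul_smul, ← hε, Units.inv_mul, one_smul]
      rw [h3, h1, Finset.smul_sum]
      exact Finset.sum_congr rfl (fun i _ => by rw [mul_smul])
    rw [h2]
    exact Submodule.sum_mem _ (fun i _ => Submodule.smul_mem _ _ (Submodule.subset_span ⟨i, rfl⟩))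
  exact ⟨Module.Basis.mk hli hsp, fun i => by simp⟩

omit [IsDiscreteValuationRing A₀] [Module.Finite A₀[X] C'] [IsIntegrallyClosed C'] in
/-- L5b: at a prime `q` where every prime of `C'` above is generated (locally) by an element of
`A₀[X]`, the ideal `q C'` is radical up to a factor prime to `q`. -/
theorem smul_mem_of_unramified (ϖ : A₀) (τ : Finset A₀) (P₀ : A₀[X])
    (hram : ∀ (𝔮 : Ideal C') [𝔮.IsPrime], 𝔮 ≠ ⊥ →
        algebraMap A₀[X] C' (Polynomial.C ϖ) ∉ 𝔮 →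
        (∀ a ∈ τ, algebraMap A₀[X] C' (X - Polynomial.C a) ∉ 𝔮) →
        algebraMap A₀[X] C' P₀ ∉ 𝔮 →
        ∃ g : A₀[X], IsLocalRing.maximalIdeal (Localization.AtPrime 𝔮) =
          Ideal.span {algebraMap C' (Localization.AtPrime 𝔮) (algebraMap A₀[X] C' g)})
    (q : A₀[X]) (hq : Prime q) (hqϖ : ¬ q ∣ C ϖ) (hqτ : ∀ a ∈ τ, ¬ q ∣ X - C a)
    (hqP : ¬ q ∣ P₀) (x : C') (hx : ∃ m : ℕ, algebraMap A₀[X] C' q ∣ x ^ m) :
    ∃ t : A₀[X], ¬ q ∣ t ∧ algebraMap A₀[X] C' q ∣ t • x := by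
  by_contra hcon
  push Not at hcon
  have hinj : Function.Injective (algebraMap A₀[X] C') :=
    Module.isTorsionFree_iff_algebraMap_injective.1 inferInstance
  set aq : C' := algebraMap A₀[X] C' q with haq
  -- the ideal `(q C' : x)`
  let I' : Ideal C' := Submodule.comap (LinearMap.mulRight C' x) (Ideal.span {aq})
  have hI' : ∀ c : C', c ∈ I' ↔ aq ∣ c * x := by
    intro c
    simp only [I', Submodule.mem_comap, LinearMap.mulRight_apply, Ideal.mem_span_singleton]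
  have hqprime : (Ideal.span {q}).IsPrime := (Ideal.span_singleton_prime hq.ne_zero).2 hq
  let S : Submonoid C' := (Ideal.span {q}).primeCompl.map (algebraMap A₀[X] C')
  have hS : ∀ c : C', c ∈ S ↔ ∃ t : A₀[X], ¬ q ∣ t ∧ algebraMap A₀[X] C' t = c := by
    intro c
    simp only [S, Submonoid.mem_map, Ideal.mem_primeCompl_iff, Ideal.mem_span_singleton]
  have hdisj : Disjoint (I' : Set C') S := by
    rw [Set.disjoint_left]
    intro c hc hcS
    obtain ⟨t, ht, rfl⟩ := (hS c).1 hcS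
    apply hcon t ht
    rw [Algebra.smul_def]
    exact (hI' _).1 hc
  obtain ⟨𝔮, h𝔮, hI𝔮, h𝔮S⟩ := Ideal.exists_le_prime_disjoint I' S hdisj
  have hdvd : ∀ t : A₀[X], algebraMap A₀[X] C' t ∈ 𝔮 → q ∣ t := by
    intro t ht
    by_contra hqt
    exact Set.disjoint_left.1 h𝔮S ht ((hS _).2 ⟨t, hqt, rfl⟩)
  have haq𝔮 : aq ∈ 𝔮 := hI𝔮 ((hI' aq).2 (dvd_mul_right aq x))
  have h𝔮bot : 𝔮 ≠ ⊥ := by
    intro h
    rw [h, Ideal.mem_bot, haq, map_eq_zero_iff _ hinj] at haq𝔮
    exact hq.ne_zero haq𝔮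
  obtain ⟨g₁, hg₁⟩ := hram 𝔮 h𝔮bot (fun h => hqϖ (hdvd _ h)) (fun a ha h => hqτ a ha (hdvd _ h))
    (fun h => hqP (hdvd _ h))
  have hg₁𝔮 : algebraMap A₀[X] C' g₁ ∈ 𝔮 := by
    rw [← IsLocalization.AtPrime.to_map_mem_maximal_iff (Localization.AtPrime 𝔮) 𝔮, hg₁]
    exact Ideal.mem_span_singleton_self _
  have hqg₁ : q ∣ g₁ := hdvd _ hg₁𝔮
  obtain ⟨m, hm⟩ := hx
  have hx𝔮 : x ∈ 𝔮 := h𝔮.mem_of_pow_mem m (Ideal.mem_of_dvd _ hm haq𝔮)
  have hxloc : algebraMap C' (Localization.AtPrime 𝔮) x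
      ∈ IsLocalRing.maximalIdeal (Localization.AtPrime 𝔮) :=
    (IsLocalization.AtPrime.to_map_mem_maximal_iff (Localization.AtPrime 𝔮) 𝔮 x).2 hx𝔮
  rw [hg₁, Ideal.mem_span_singleton] at hxloc
  obtain ⟨y, hy⟩ := hxloc
  obtain ⟨⟨c₁, s⟩, hcs⟩ := IsLocalization.surj 𝔮.primeCompl y
  -- `algebraMap (x * s) = algebraMap (g₁ * c₁)` in the localisation
  have h1 : algebraMap C' (Localization.AtPrime 𝔮) (x * s)
      = algebraMap C' (Localization.AtPrime 𝔮) (algebraMap A₀[X] C' g₁ * c₁) := by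
    rw [map_mul, map_mul, hy, mul_assoc, hcs]
  obtain ⟨s', hs'⟩ := (IsLocalization.eq_iff_exists 𝔮.primeCompl _).1 h1
  have hs'0 : (s' : C') ≠ 0 := fun h => s'.2 (by rw [h]; exact 𝔮.zero_mem)
  have h2 : x * s = algebraMap A₀[X] C' g₁ * c₁ := mul_left_cancel₀ hs'0 hs'
  have h3 : (s : C') ∈ I' := by
    rw [hI']
    obtain ⟨γ, hγ⟩ := hqg₁
    refine ⟨algebraMap A₀[X] C' γ * c₁, ?_⟩
    rw [mul_comm (s : C') x, h2, hγ, map_mul, haq, mul_assoc]
  exact s.2 (hI𝔮 h3)

end Concrete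

end Fermat.Agent.S18.H8
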