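/-
S18 / Program J, second core (route #1088), Leaf A (abstract Theorem D): piece L2
(lifted basis of `C / ϖ`, Nakayama element, reduction of the Gram matrix, nondegeneracy).
helper8.
-/
import Mathlib
import Fermat.Agent.S18.H8.DGlobalA

set_option autoImplicit false

open Polynomial Matrix

namespace Fermat.Agent.S18.H8

/-- If `π c = r` with `c` integral over the domain `R` and `π` prime, then `π ∣ r`. -/
theorem dvd_of_algebraMap_mul_eq {R S : Type*} [CommRing R] [IsDomain R] [CommRing S]
    [Algebra R S] (hinj : Function.Injective (algebraMap R S)) {π : R} (hπ : Prime π) {r : R}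
    {c : S} (hc : IsIntegral R c) (h : algebraMap R S π * c = algebraMap R S r) : π ∣ r := by
  obtain ⟨p, hp, hpc⟩ := hc
  have h1 : Polynomial.aeval (algebraMap R S π * c) (scaleRoots p π) = 0 :=
    scaleRoots_aeval_eq_zero (by rwa [Polynomial.aeval_def])
  rw [h, Polynomial.aeval_algebraMap_apply, map_eq_zero_iff _ hinj,
    Polynomial.coe_aeval_eq_eval] at h1
  have h2 : π ∣ r ^ p.natDegree := by
    rw [Polynomial.eval_eq_sum_range, natDegree_scaleRoots, Finset.sum_range_succ] at h1
    have h3 : (scaleRoots p π).coeff p.natDegree * r ^ p.natDegree = r ^ p.natDegree := by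
      rw [coeff_scaleRoots, Nat.sub_self, pow_zero, mul_one, hp.coeff_natDegree, one_mul]
    rw [h3] at h1
    have h4 : π ∣ ∑ i ∈ Finset.range p.natDegree, (scaleRoots p π).coeff i * r ^ i := by
      apply Finset.dvd_sum
      intro i hi
      rw [coeff_scaleRoots]
      have h5 : π ∣ π ^ (p.natDegree - i) :=
        dvd_pow_self π (by have := Finset.mem_range.1 hi; omega)
      exact Dvd.dvd.mul_right (Dvd.dvd.mul_left h5 _) _
    have h6 : r ^ p.natDegree
        = -(∑ i ∈ Finset.range p.natDegree, (scaleRoots p π).coeff i * r ^ i) := by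
      linear_combination h1
    rw [h6]
    exact (dvd_neg).2 h4
  exact hπ.dvd_of_dvd_pow h2

section IntTrace

attribute [local instance] FractionRing.liftAlgebra FractionRing.isScalarTower_liftAlgebra

variable {R S : Type*} [CommRing R] [IsDomain R] [IsIntegrallyClosed R]
    [CommRing S] [IsDomain S] [IsIntegrallyClosed S] [Algebra R S] [Module.Finite R S]
    [Module.IsTorsionFree R S]

local notation "KK" => FractionRing R
local notation "LL" => FractionRing S

omit [IsIntegrallyClosed R] [IsIntegrallyClosed S] [Module.Finite R S] in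
theorem algebraMap_smul_fraction (r : R) (w : S) :
    algebraMap S LL (r • w) = algebraMap R KK r • algebraMap S LL w := by
  rw [Algebra.smul_def, map_mul, Algebra.smul_def, ← IsScalarTower.algebraMap_apply R S LL,
    ← IsScalarTower.algebraMap_apply R KK LL]

open scoped nonZeroDivisors in
/-- Computation of `intTrace` on a family that is a basis after inverting `g`. -/
theorem smul_intTrace_eq_sum {n : ℕ} (c : Fin n → S) (hc : LinearIndependent R c) (g : R)
    (hg0 : g ≠ 0) (hg : ∀ x : S, g • x ∈ Submodule.span R (Set.range c)) (x : S)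
    (ρ : Fin n → Fin n → R) (hρ : ∀ i, ∑ j, ρ i j • c j = g • (x * c i)) :
    g * Algebra.intTrace R S x = ∑ i, ρ i i := by
  classical
  have hinjK : Function.Injective (algebraMap R KK) := IsFractionRing.injective R KK
  have hinjL : Function.Injective (algebraMap S LL) := IsFractionRing.injective S LL
  have hgK : algebraMap R KK g ≠ 0 := (map_ne_zero_iff _ hinjK).2 hg0
  haveI : IsIntegralClosure S R LL := IsIntegralClosure.of_isIntegrallyClosed _ _ _
  haveI : Algebra.IsAlgebraic KK LL := isAlgebraic_of_isFractionRing R S KK LL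
  haveI : IsLocalization (Algebra.algebraMapSubmonoid S R⁰) LL :=
    IsIntegralClosure.isLocalization _ KK _ _
  haveI : FiniteDimensional KK LL := .of_isLocalization R S R⁰
  let cL : Fin n → LL := fun i => algebraMap S LL (c i)
  -- transport of `R`-combinations
  have hcomb : ∀ (a : Fin n → R) (w : S), ∑ j, a j • c j = w →
      ∑ j, algebraMap R KK (a j) • cL j = algebraMap S LL w := by
    intro a w h
    rw [← h, map_sum]
    exact Finset.sum_congr rfl (fun j _ => (algebraMap_smul_fraction (a j) (c j)).symm)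
  have hliR : LinearIndependent R cL :=
    hc.map' (IsScalarTower.toAlgHom R S LL).toLinearMap
      (LinearMap.ker_eq_bot.2 (by exact hinjL))
  have hliK : LinearIndependent KK cL := (LinearIndependent.iff_fractionRing R KK).1 hliR
  have hspK : ⊤ ≤ Submodule.span KK (Set.range cL) := by
    intro y _
    obtain ⟨⟨x', s⟩, hxs⟩ := IsLocalization.surj (Algebra.algebraMapSubmonoid S R⁰) y
    obtain ⟨r, hr, hrs⟩ := s.2
    obtain ⟨a, ha⟩ := (Submodule.mem_span_range_iff_exists_fun _).1 (hg x')
    have hr0 : algebraMap R KK r ≠ 0 :=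
      (map_ne_zero_iff _ hinjK).2 (nonZeroDivisors.ne_zero hr)
    have h1 := hcomb a _ ha
    have h0 : algebraMap S LL x' = algebraMap R KK r • y := by
      have h5 : (s : S) = r • (1 : S) := by rw [← hrs, Algebra.smul_def, mul_one]
      rw [← hxs, h5, algebraMap_smul_fraction, map_one, Algebra.smul_def, Algebra.smul_def]
      ring
    have h2 : algebraMap S LL (g • x') = (algebraMap R KK g * algebraMap R KK r) • y := by
      rw [algebraMap_smul_fraction, h0, smul_smul]
    have h3 : y = (algebraMap R KK g * algebraMap R KK r)⁻¹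
        • ∑ j, algebraMap R KK (a j) • cL j := by
      rw [h1, h2, smul_smul, inv_mul_cancel₀ (mul_ne_zero hgK hr0), one_smul]
    rw [h3]
    exact Submodule.smul_mem _ _ (Submodule.sum_mem _ (fun j _ =>
      Submodule.smul_mem _ _ (Submodule.subset_span ⟨j, rfl⟩)))
  let cLb : Module.Basis (Fin n) KK LL := Module.Basis.mk hliK hspK
  have hcLb : ∀ i, cLb i = cL i := fun i => by simp [cLb]
  have hrepr : ∀ i, cLb.repr (algebraMap S LL x * cLb i) i
      = (algebraMap R KK g)⁻¹ * algebraMap R KK (ρ i i) := by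
    intro i
    have h1 := hcomb (ρ i) _ (hρ i)
    have h2 : algebraMap S LL x * cLb i
        = ∑ j, ((algebraMap R KK g)⁻¹ * algebraMap R KK (ρ i j)) • cLb j := by
      have h3 : algebraMap S LL (g • (x * c i))
          = algebraMap R KK g • (algebraMap S LL x * cLb i) := by
        rw [algebraMap_smul_fraction, map_mul, hcLb]
      rw [h3] at h1
      have h4 : algebraMap S LL x * cLb i
          = (algebraMap R KK g)⁻¹ • (algebraMap R KK g • (algebraMap S LL x * cLb i)) := by
        rw [smul_smul, inv_mul_cancel₀ hgK, one_smul]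
      rw [h4, ← h1, Finset.smul_sum]
      exact Finset.sum_congr rfl (fun j _ => by rw [smul_smul, hcLb])
    rw [h2, cLb.repr_sum_self]
  apply hinjK
  rw [map_mul, Algebra.algebraMap_intTrace_fractionRing, Algebra.trace_eq_matrix_trace cLb,
    Matrix.trace, map_sum, Finset.mul_sum]
  refine Finset.sum_congr rfl (fun i _ => ?_)
  rw [Matrix.diag_apply, Algebra.leftMulMatrix_eq_repr_mul, hrepr i, ← mul_assoc,
    mul_inv_cancel₀ hgK, one_mul]

end IntTrace

section Lifted

variable {A₀ : Type*} [CommRing A₀] [IsDomain A₀] [IsDiscreteValuationRing A₀]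
  {C' : Type*} [CommRing C'] [IsDomain C'] [Algebra A₀[X] C'] [Module.Finite A₀[X] C']
  [Module.IsTorsionFree A₀[X] C'] [IsIntegrallyClosed C']

attribute [local instance] FractionRing.liftAlgebra FractionRing.isScalarTower_liftAlgebra

/-- L2: lifted basis, Nakayama element, reduction of the Gram matrix. -/
theorem exists_lifted_basis (ϖ : A₀) (hϖ : Irreducible ϖ)
    (hdom : (Ideal.span {algebraMap A₀[X] C' (Polynomial.C ϖ)}).IsPrime)
    (hsep : ∀ c : C', (∀ c' : C', Polynomial.C ϖ ∣ Algebra.intTrace A₀[X] C' (c * c')) →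
        algebraMap A₀[X] C' (Polynomial.C ϖ) ∣ c) :
    ∃ (ι : Type) (_ : Fintype ι) (_ : DecidableEq ι) (c : ι → C') (g : A₀[X])
      (b : Module.Basis ι (A₀[X] ⧸ Ideal.span {(C ϖ : A₀[X])})
        (C' ⧸ (Ideal.span {(C ϖ : A₀[X])}).map (algebraMap A₀[X] C'))),
      (∀ i, b i = Ideal.Quotient.mk _ (c i)) ∧ LinearIndependent A₀[X] c ∧ C ϖ ∣ g - 1 ∧
      (∀ x : C', g • x ∈ Submodule.span A₀[X] (Set.range c)) ∧
      (∀ i j, Algebra.traceMatrix (A₀[X] ⧸ Ideal.span {(C ϖ : A₀[X])}) b i j =
        Ideal.Quotient.mk _ (Algebra.intTrace A₀[X] C' (c i * c j))) ∧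
      ¬ C ϖ ∣ (Matrix.of fun i j => Algebra.intTrace A₀[X] C' (c i * c j)).det := by
  classical
  set π : A₀[X] := C ϖ with hπdef
  have hπ : Prime π := by rw [hπdef, Polynomial.prime_C_iff]; exact hϖ.prime
  set I : Ideal A₀[X] := Ideal.span {π} with hIdef
  set J : Ideal C' := I.map (algebraMap A₀[X] C') with hJdef
  have hJ : J = Ideal.span {algebraMap A₀[X] C' π} := by
    rw [hJdef, hIdef, Ideal.map_span, Set.image_singleton]
  have hJprime : J.IsPrime := by rw [hJ]; exact hdom
  obtain ⟨hRdom, hRpid⟩ := quotient_isDomain_isPrincipalIdealRing (A₀ := A₀) ϖ hϖ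
  have hinj : Function.Injective (algebraMap A₀[X] C') :=
    Module.isTorsionFree_iff_algebraMap_injective.1 inferInstance
  have hmkalg : ∀ α : A₀[X], algebraMap (A₀[X] ⧸ I) (C' ⧸ J) (Ideal.Quotient.mk I α)
      = Ideal.Quotient.mk J (algebraMap A₀[X] C' α) := fun α => rfl
  have hmksmul : ∀ (α : A₀[X]) (w : C'), Ideal.Quotient.mk J (α • w)
      = Ideal.Quotient.mk I α • Ideal.Quotient.mk J w := by
    intro α w
    rw [Algebra.smul_def, Algebra.smul_def, map_mul, hmkalg]
  have hinjb : Function.Injective (algebraMap (A₀[X] ⧸ I) (C' ⧸ J)) := by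
    rw [injective_iff_map_eq_zero]
    intro rbar hr
    obtain ⟨r, rfl⟩ := Ideal.Quotient.mk_surjective rbar
    rw [hmkalg, Ideal.Quotient.eq_zero_iff_mem, hJ, Ideal.mem_span_singleton] at hr
    obtain ⟨c, hc⟩ := hr
    rw [Ideal.Quotient.eq_zero_iff_mem, hIdef, Ideal.mem_span_singleton]
    exact dvd_of_algebraMap_mul_eq hinj hπ (Algebra.IsIntegral.isIntegral c) hc.symm
  have hCbdom : IsDomain (C' ⧸ J) := Ideal.Quotient.isDomain J
  have htf : Module.IsTorsionFree (A₀[X] ⧸ I) (C' ⧸ J) :=
    Module.isTorsionFree_iff_algebraMap_injective.2 hinjb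
  have hfin : Module.Finite (A₀[X] ⧸ I) (C' ⧸ J) :=
    Module.Finite.of_restrictScalars_finite A₀[X] (A₀[X] ⧸ I) (C' ⧸ J)
  have hfree : Module.Free (A₀[X] ⧸ I) (C' ⧸ J) := Module.free_of_finite_type_torsion_free'
  obtain ⟨n, ⟨b⟩⟩ : ∃ n : ℕ, Nonempty (Module.Basis (Fin n) (A₀[X] ⧸ I) (C' ⧸ J)) :=
    ⟨_, ⟨Module.finBasis (A₀[X] ⧸ I) (C' ⧸ J)⟩⟩
  have hJmem : ∀ y : C', y ∈ J ↔ algebraMap A₀[X] C' π ∣ y := by
    intro y
    rw [hJ, Ideal.mem_span_singleton]
  choose c hc using fun i => Ideal.Quotient.mk_surjective (b i)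
  -- every `x` lies in `span c + π C'`
  set N : Submodule A₀[X] C' := Submodule.span A₀[X] (Set.range c) with hN
  have hspan : ∀ x : C', ∃ y : C', x - π • y ∈ N := by
    intro x
    have h1 := b.sum_repr (Ideal.Quotient.mk J x)
    choose ρ hρ using fun i => Ideal.Quotient.mk_surjective (b.repr (Ideal.Quotient.mk J x) i)
    have h2 : Ideal.Quotient.mk J (x - ∑ i, ρ i • c i) = 0 := by
      rw [map_sub, map_sum, sub_eq_zero, ← h1]
      refine Finset.sum_congr rfl (fun i _ => ?_)
      rw [hmksmul, hρ i, hc i]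
    obtain ⟨y, hy⟩ := (hJmem _).1 (Ideal.Quotient.eq_zero_iff_mem.1 h2)
    refine ⟨y, ?_⟩
    have h3 : x - π • y = ∑ i, ρ i • c i := by
      rw [Algebra.smul_def, ← hy]; ring
    rw [h3]
    exact Submodule.sum_mem _ (fun i _ => Submodule.smul_mem _ _ (Submodule.subset_span ⟨i, rfl⟩))
  -- Nakayama
  obtain ⟨g, hg1, hg2⟩ := Submodule.exists_sub_one_mem_and_smul_eq_zero_of_fg_of_le_smul I
    (⊤ : Submodule A₀[X] (C' ⧸ N)) Module.Finite.fg_top (by
      intro xbar _
      obtain ⟨x, rfl⟩ := Submodule.Quotient.mk_surjective N xbar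
      obtain ⟨y, hy⟩ := hspan x
      have h1 : (Submodule.Quotient.mk x : C' ⧸ N) = π • (Submodule.Quotient.mk y : C' ⧸ N) := by
        rw [← Submodule.Quotient.mk_smul, Submodule.Quotient.eq]
        exact hy
      rw [h1]
      exact Submodule.smul_mem_smul (Ideal.subset_span rfl) Submodule.mem_top)
  have hgC : ∀ x : C', g • x ∈ N := by
    intro x
    have h1 := hg2 (Submodule.Quotient.mk x) Submodule.mem_top
    rwa [← Submodule.Quotient.mk_smul, Submodule.Quotient.mk_eq_zero] at h1
  have hgπ : π ∣ g - 1 := Ideal.mem_span_singleton.1 hg1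
  have hg1' : Ideal.Quotient.mk I g = 1 := by
    rw [← sub_eq_zero, ← map_one (Ideal.Quotient.mk I), ← map_sub]
    exact Ideal.Quotient.eq_zero_iff_mem.2 hg1
  have hgsmul : ∀ w : C', Ideal.Quotient.mk J (g • w) = Ideal.Quotient.mk J w := by
    intro w
    rw [hmksmul, hg1']
    exact one_smul (A₀[X] ⧸ I) (Ideal.Quotient.mk J w)
  have hg0 : g ≠ 0 := by
    intro h
    rw [h, map_zero] at hg1'
    exact zero_ne_one hg1'
  -- linear independence of the lifts
  have hcli : LinearIndependent A₀[X] c := by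
    rw [Fintype.linearIndependent_iff]
    intro a ha
    have key : ∀ m : ℕ, ∀ a : Fin n → A₀[X],
        ∑ i, a i • c i = 0 → ∀ i, π ^ m ∣ a i := by
      intro m
      induction m with
      | zero => intro a _ i; simp
      | succ m ih =>
        intro a ha i
        have h1 : ∀ i, π ∣ a i := by
          intro i
          have h2 : ∑ i, Ideal.Quotient.mk I (a i) • b i = 0 := by
            have h3 := congrArg (Ideal.Quotient.mk J) ha
            rw [map_sum, map_zero] at h3
            rw [← h3]
            refine Finset.sum_congr rfl (fun i _ => ?_)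
            rw [hmksmul, hc i]
          have h3 := (Fintype.linearIndependent_iff.1 b.linearIndependent) _ h2 i
          rwa [Ideal.Quotient.eq_zero_iff_mem, hIdef, Ideal.mem_span_singleton] at h3
        choose a' ha' using h1
        have h4 : ∑ i, a' i • c i = 0 := by
          have h5 : algebraMap A₀[X] C' π * ∑ i, a' i • c i = 0 := by
            rw [← Algebra.smul_def, Finset.smul_sum, ← ha]
            exact Finset.sum_congr rfl (fun i _ => by rw [smul_smul, ← ha' i])
          rcases mul_eq_zero.1 h5 with h6 | h6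
          · exact absurd ((map_eq_zero_iff _ hinj).1 h6) hπ.ne_zero
          · exact h6
        rw [ha' i, pow_succ']
        exact mul_dvd_mul_left _ (ih a' h4 i)
    intro i
    by_contra hai
    obtain ⟨m, hm⟩ := FiniteMultiplicity.of_not_isUnit hπ.not_isUnit hai
    exact hm (key (m + 1) a ha i)
  -- trace compatibility
  have htr : ∀ x : C', Algebra.trace (A₀[X] ⧸ I) (C' ⧸ J) (Ideal.Quotient.mk J x)
      = Ideal.Quotient.mk I (Algebra.intTrace A₀[X] C' x) := by
    intro x
    choose ρ hρ using fun i => (Submodule.mem_span_range_iff_exists_fun _).1 (hgC (x * c i))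
    have h1 : ∀ i, Ideal.Quotient.mk J x * b i = ∑ j, Ideal.Quotient.mk I (ρ i j) • b j := by
      intro i
      have h2 := congrArg (Ideal.Quotient.mk J) (hρ i)
      rw [map_sum, hgsmul, map_mul, hc i] at h2
      rw [← h2]
      refine Finset.sum_congr rfl (fun j _ => ?_)
      rw [hmksmul, hc j]
    have h2 : Algebra.trace (A₀[X] ⧸ I) (C' ⧸ J) (Ideal.Quotient.mk J x)
        = ∑ i, Ideal.Quotient.mk I (ρ i i) := by
      rw [Algebra.trace_eq_matrix_trace b, Matrix.trace]
      refine Finset.sum_congr rfl (fun i _ => ?_)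
      rw [Matrix.diag_apply, Algebra.leftMulMatrix_eq_repr_mul, h1 i, b.repr_sum_self]
    have h3 : g * Algebra.intTrace A₀[X] C' x = ∑ i, ρ i i :=
      smul_intTrace_eq_sum c hcli g hg0 hgC x ρ hρ
    rw [h2, ← map_sum, ← h3, map_mul, hg1', one_mul]
  have htrace : ∀ i j, Algebra.traceMatrix (A₀[X] ⧸ I) b i j =
      Ideal.Quotient.mk I (Algebra.intTrace A₀[X] C' (c i * c j)) := by
    intro i j
    rw [Algebra.traceMatrix_apply, Algebra.traceForm_apply, ← hc i, ← hc j, ← map_mul, htr]
  -- nondegeneracy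
  have hdet : ¬ π ∣ (Matrix.of fun i j => Algebra.intTrace A₀[X] C' (c i * c j)).det := by
    intro hdvd
    have hGb0 : (Algebra.traceMatrix (A₀[X] ⧸ I) b).det = 0 := by
      have h1 : Algebra.traceMatrix (A₀[X] ⧸ I) b
          = (Ideal.Quotient.mk I).mapMatrix
            (Matrix.of fun i j => Algebra.intTrace A₀[X] C' (c i * c j)) := by
        ext i j
        rw [htrace]
        rfl
      rw [h1, ← RingHom.map_det]
      exact Ideal.Quotient.eq_zero_iff_mem.2 (Ideal.mem_span_singleton.2 hdvd)
    obtain ⟨v, hv0, hv⟩ := Matrix.exists_mulVec_eq_zero_iff.2 hGb0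
    have hxbar0 : ∑ j, v j • b j ≠ 0 := by
      intro h
      apply hv0
      funext j
      exact (Fintype.linearIndependent_iff.1 b.linearIndependent) v h j
    obtain ⟨x, hx⟩ := Ideal.Quotient.mk_surjective (∑ j, v j • b j)
    apply hxbar0
    rw [← hx, Ideal.Quotient.eq_zero_iff_mem, hJmem]
    apply hsep
    intro c'
    rw [← Ideal.mem_span_singleton, ← Ideal.Quotient.eq_zero_iff_mem, ← htr, map_mul, hx,
      ← b.sum_repr (Ideal.Quotient.mk J c'), Finset.mul_sum, map_sum]
    refine Finset.sum_eq_zero (fun i _ => ?_)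
    rw [mul_smul_comm, map_smul]
    have h2 : Algebra.trace (A₀[X] ⧸ I) (C' ⧸ J) ((∑ j, v j • b j) * b i)
        = (Algebra.traceMatrix (A₀[X] ⧸ I) b *ᵥ v) i := by
      rw [Finset.sum_mul, map_sum, Matrix.mulVec, dotProduct]
      refine Finset.sum_congr rfl (fun j _ => ?_)
      rw [smul_mul_assoc, map_smul, smul_eq_mul, Algebra.traceMatrix_apply,
        Algebra.traceForm_apply, mul_comm (b j) (b i), mul_comm]
    rw [h2, hv]
    simp
  exact ⟨Fin n, inferInstance, inferInstance, c, g, b,
    fun i => (hc i).symm, hcli, hgπ, hgC, htrace, hdet⟩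

end Lifted

end Fermat.Agent.S18.H8
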