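/-
S18 / Program J, second core (route #1088), Leaf A: abstract **Theorem D**
(statement of `H19.theoremD`, origin/helper19 Route.lean), assembled from
  L0, L2, L5b, L6  (H8/DGlobalA.lean, H8/DGlobalB.lean),
  L1, L3, L4       (H82/TheoremDLeaves.lean; L1 is the local-to-global form of `discLocal`),
with the char-0 tame bound L5 as an explicit hypothesis (`theoremD_of_tame`).  helper8.
-/
import Mathlib
import Fermat.Agent.S18.H8.DGlobalA
import Fermat.Agent.S18.H8.DGlobalB
import Fermat.Agent.S18.H82.TheoremDLeaves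

set_option autoImplicit false

open Polynomial

namespace Fermat.Agent.S18.H8

section Assembly

variable {A₀ : Type*} [CommRing A₀] [IsDomain A₀] [IsDiscreteValuationRing A₀] [CharZero A₀]
  {C' : Type*} [CommRing C'] [IsDomain C'] [Algebra A₀[X] C'] [Module.Finite A₀[X] C']
  [Module.IsTorsionFree A₀[X] C'] [IsIntegrallyClosed C']

omit [CharZero A₀] in
/-- **Theorem D** (abstract; statement of `H19.theoremD`), with the char-0 tame bound `L5` at the
height-one primes of `A₀[X]` as an explicit hypothesis. -/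
theorem theoremD_of_tame
    (ϖ : A₀) (hϖ : Irreducible ϖ)
    (htame : ∀ {ι : Type} [Fintype ι] [DecidableEq ι] (c : ι → C')
      (_ : LinearIndependent A₀[X] c) (g : A₀[X])
      (_ : ∀ x : C', g • x ∈ Submodule.span A₀[X] (Set.range c))
      (q : A₀[X]) (_ : Prime q) (_ : ¬ q ∣ C ϖ) (_ : ¬ q ∣ g) (s : ℕ) (v : Fin s → C')
      (_ : ∀ a : Fin s → A₀[X],
        (∃ m : ℕ, algebraMap A₀[X] C' q ∣ (∑ k, a k • v k) ^ m) → ∀ k, q ∣ a k),
      ¬ q ^ (Fintype.card ι - s + 1) ∣
        (Matrix.of fun i j => Algebra.intTrace A₀[X] C' (c i * c j)).det)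
    (hdom : (Ideal.span {algebraMap A₀[X] C' (Polynomial.C ϖ)}).IsPrime)
    (hsep : ∀ c : C', (∀ c' : C', Polynomial.C ϖ ∣ Algebra.intTrace A₀[X] C' (c * c')) →
        algebraMap A₀[X] C' (Polynomial.C ϖ) ∣ c)
    (τ : Finset A₀) (hτ : ∀ a ∈ τ, ∀ b ∈ τ, a ≠ b → IsUnit (a - b))
    (P₀ : A₀[X]) (hP₀ : ∃ u : A₀, IsUnit u ∧ ∀ i, ϖ ∣ (P₀ - Polynomial.C u).coeff i)
    (hram : ∀ (𝔮 : Ideal C') [𝔮.IsPrime], 𝔮 ≠ ⊥ →
        algebraMap A₀[X] C' (Polynomial.C ϖ) ∉ 𝔮 →
        (∀ a ∈ τ, algebraMap A₀[X] C' (X - Polynomial.C a) ∉ 𝔮) →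
        algebraMap A₀[X] C' P₀ ∉ 𝔮 →
        ∃ g : A₀[X], IsLocalRing.maximalIdeal (Localization.AtPrime 𝔮) =
          Ideal.span {algebraMap C' (Localization.AtPrime 𝔮) (algebraMap A₀[X] C' g)}) :
    IsIntegrallyClosed (C' ⧸ Ideal.span {algebraMap A₀[X] C' (Polynomial.C ϖ)}) := by
  classical
  have hI : (Ideal.span {(C ϖ : A₀[X])}).map (algebraMap A₀[X] C')
      = Ideal.span {algebraMap A₀[X] C' (C ϖ)} := by
    rw [Ideal.map_span, Set.image_singleton]
  rw [← hI]
  have hprime : ((Ideal.span {(C ϖ : A₀[X])}).map (algebraMap A₀[X] C')).IsPrime := by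
    rw [hI]; exact hdom
  obtain ⟨hRdom, hRpid⟩ := quotient_isDomain_isPrincipalIdealRing (A₀ := A₀) ϖ hϖ
  obtain ⟨ι, _, _, c, g, b, hbc, hcli, hgϖ, hgC, htrace, hdet⟩ :=
    exists_lifted_basis (C' := C') ϖ hϖ hdom hsep
  set G : Matrix ι ι A₀[X] := Matrix.of fun i j => Algebra.intTrace A₀[X] C' (c i * c j) with hG
  have hP₀' : ∃ u : A₀, IsUnit u ∧ C ϖ ∣ P₀ - C u := by
    obtain ⟨u, hu, h⟩ := hP₀
    exact ⟨u, hu, (Polynomial.C_dvd_iff_dvd_coeff _ _).2 h⟩
  have hdetmk : (Algebra.traceMatrix (A₀[X] ⧸ Ideal.span {(C ϖ : A₀[X])}) b).det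
      = Ideal.Quotient.mk _ G.det := by
    rw [RingHom.map_det]
    congr 1
    ext i j
    rw [htrace]
    rfl
  -- prime factors of the discriminant
  have hgood : ∀ q : A₀[X], Prime q → q ∣ G.det →
      (∃ a ∈ τ, Associated q (X - C a)) ∨ q ∣ P₀ ∨ q ∣ g := by
    intro q hq hqD
    by_contra hcon
    push Not at hcon
    obtain ⟨h1, h2, h3⟩ := hcon
    have hCϖ : Prime (C ϖ : A₀[X]) := by
      rw [Polynomial.prime_C_iff]; exact hϖ.prime
    have hqϖ : ¬ q ∣ C ϖ := fun h =>
      hdet ((hq.associated_of_dvd hCϖ h).symm.dvd.trans hqD)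
    have hqτ : ∀ a ∈ τ, ¬ q ∣ X - C a := fun a ha h =>
      h1 a ha (hq.associated_of_dvd (Polynomial.prime_X_sub_C a) h)
    refine htame c hcli g hgC q hq hqϖ h3 (Fintype.card ι)
      (c ∘ (Fintype.equivFin ι).symm) ?_ ?_
    · intro α hα k
      obtain ⟨t, htq, w, hw⟩ := smul_mem_of_unramified ϖ τ P₀ hram q hq hqϖ hqτ h2 _ hα
      obtain ⟨ρ, hρ⟩ := (Submodule.mem_span_range_iff_exists_fun _).1 (hgC w)
      have h4 : ∑ i, (g * t * α (Fintype.equivFin ι i) - q * ρ i) • c i = 0 := by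
        have h5 : ∑ i, (g * t * α (Fintype.equivFin ι i)) • c i
            = g • t • ∑ k, α k • (c ∘ (Fintype.equivFin ι).symm) k := by
          rw [← Equiv.sum_comp (Fintype.equivFin ι) (fun k => α k • (c ∘ (Fintype.equivFin ι).symm) k)]
          simp only [Function.comp_apply, Equiv.symm_apply_apply, Finset.smul_sum, smul_smul]
          refine Finset.sum_congr rfl (fun i _ => ?_)
          ring_nf
        have h6 : ∑ i, (q * ρ i) • c i = q • g • w := by
          rw [← hρ, Finset.smul_sum]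
          exact Finset.sum_congr rfl (fun i _ => by rw [mul_smul])
        simp only [sub_smul, Finset.sum_sub_distrib]
        rw [h5, h6, hw, Algebra.smul_def q, mul_smul_comm, sub_self]
      have h7 := (Fintype.linearIndependent_iff.1 hcli) _ h4 ((Fintype.equivFin ι).symm k)
      rw [Equiv.apply_symm_apply, sub_eq_zero] at h7
      have h8 : q ∣ g * t * α k := ⟨ρ _, h7⟩
      rcases hq.dvd_or_dvd h8 with h9 | h9
      · rcases hq.dvd_or_dvd h9 with h10 | h10
        · exact absurd h10 h3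
        · exact absurd h10 htq
      · exact h9
    · simpa using hqD
  apply H82.isIntegrallyClosed_of_disc b
  intro p hp
  rw [hdetmk]
  by_cases hpD : p ∣ Ideal.Quotient.mk _ G.det
  · obtain ⟨a, ha, hassoc, hpow⟩ := H82.gauss_step ϖ hϖ τ hτ P₀ g hP₀' hgϖ G.det hdet hgood p hp hpD
    let _ := algBase A₀ C'
    obtain ⟨bW, hbW⟩ := exists_quotient_basis ϖ hϖ c hcli g hgC hgϖ a
    set IW : Ideal C' := Ideal.span {algebraMap A₀[X] C' (X - C a)} with hIW
    have : Module.Free A₀ (C' ⧸ IW) := Module.Free.of_basis bW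
    have : Module.Finite A₀ (C' ⧸ IW) := Module.Finite.of_basis bW
    obtain ⟨ν, s, z, v, hνs, hznil, hzind, hvind⟩ := H82.exists_nilpotent_split ϖ hϖ (C' ⧸ IW)
    have hrank : Module.finrank A₀ (C' ⧸ IW) = Fintype.card ι := Module.finrank_eq_card_basis bW
    choose zt hzt using fun k => Ideal.Quotient.mk_surjective (z k)
    choose vt hvt using fun k => Ideal.Quotient.mk_surjective (v k)
    have hWsmul : ∀ (α : A₀[X]) (w : C'),
        Ideal.Quotient.mk IW (α • w) = (α.eval a) • Ideal.Quotient.mk IW w := by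
      intro α w
      obtain ⟨β, hβ⟩ := Polynomial.X_sub_C_dvd_sub_C_eval (a := a) (p := α)
      have h1 : (α.eval a) • Ideal.Quotient.mk IW w
          = Ideal.Quotient.mk IW (algebraMap A₀[X] C' (C (α.eval a)) * w) := by
        rw [Algebra.smul_def, map_mul]; rfl
      rw [h1, Algebra.smul_def, Ideal.Quotient.eq, ← sub_mul, ← map_sub, hβ, map_mul, mul_assoc]
      exact Ideal.mul_mem_right _ _ (Ideal.subset_span rfl)
    have hmkalg : ∀ α : A₀[X], algebraMap (A₀[X] ⧸ Ideal.span {(C ϖ : A₀[X])})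
          (C' ⧸ (Ideal.span {(C ϖ : A₀[X])}).map (algebraMap A₀[X] C')) (Ideal.Quotient.mk _ α)
        = Ideal.Quotient.mk _ (algebraMap A₀[X] C' α) := fun α => rfl
    refine ⟨ν, fun k => Ideal.Quotient.mk _ (zt k), ?_, ?_, ?_⟩
    · intro k
      obtain ⟨m, hm⟩ := hznil k
      have h1 : zt k ^ m ∈ IW := by
        rw [← Ideal.Quotient.eq_zero_iff_mem, map_pow, hzt, hm]
      obtain ⟨w, hw⟩ := Ideal.mem_span_singleton.1 h1
      refine ⟨m, (_root_.map_dvd (algebraMap _ _) hassoc.dvd).trans ⟨Ideal.Quotient.mk _ w, ?_⟩⟩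
      rw [← map_pow, hw, map_mul, hmkalg]
    · intro abar habar k
      choose α hα using fun k => Ideal.Quotient.mk_surjective (abar k)
      obtain ⟨wbar, hwbar⟩ := (_root_.map_dvd (algebraMap _ _) hassoc.symm.dvd).trans habar
      obtain ⟨w, rfl⟩ := Ideal.Quotient.mk_surjective wbar
      have h2 : ∑ k, α k • zt k - algebraMap A₀[X] C' (X - C a) * w
          ∈ (Ideal.span {(C ϖ : A₀[X])}).map (algebraMap A₀[X] C') := by
        rw [← Ideal.Quotient.eq, map_mul, ← hmkalg, ← hwbar, map_sum]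
        refine Finset.sum_congr rfl (fun k _ => ?_)
        rw [← hα k, Algebra.smul_def, Algebra.smul_def, map_mul, hmkalg]
      rw [hI, Ideal.mem_span_singleton] at h2
      obtain ⟨w', hw'⟩ := h2
      have h3 : ∑ k, (α k).eval a • z k = ϖ • Ideal.Quotient.mk IW w' := by
        have h4 := congrArg (Ideal.Quotient.mk IW) hw'
        rw [map_sub, map_sum] at h4
        have h5 : Ideal.Quotient.mk IW (algebraMap A₀[X] C' (X - C a) * w) = 0 :=
          Ideal.Quotient.eq_zero_iff_mem.2 (Ideal.mul_mem_right _ _ (Ideal.subset_span rfl))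
        have h6 : Ideal.Quotient.mk IW (algebraMap A₀[X] C' (C ϖ) * w')
            = ϖ • Ideal.Quotient.mk IW w' := by
          rw [Algebra.smul_def, map_mul]; rfl
        rw [h5, sub_zero, h6] at h4
        rw [← h4]
        exact Finset.sum_congr rfl (fun k _ => by rw [hWsmul, hzt])
      obtain ⟨μ, hμ⟩ := hzind (fun k => (α k).eval a) ⟨_, h3⟩ k
      obtain ⟨β, hβ⟩ := Polynomial.X_sub_C_dvd_sub_C_eval (a := a) (p := α k)
      rw [← hα k]
      refine hassoc.dvd.trans ⟨Ideal.Quotient.mk _ β, ?_⟩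
      rw [← map_mul, Ideal.Quotient.eq, Ideal.mem_span_singleton]
      refine ⟨C μ, ?_⟩
      rw [← hβ, ← C_mul, ← hμ]
      ring
    · intro hdvd
      have h1 := hpow (ν + 1) hdvd
      refine htame c hcli g hgC (X - C a) (Polynomial.prime_X_sub_C a) ?_ ?_ s vt ?_ ?_
      · rw [Polynomial.dvd_iff_isRoot]
        simp [hϖ.ne_zero]
      · rw [Polynomial.dvd_iff_isRoot]
        intro hroot
        obtain ⟨h, hh⟩ := hgϖ
        have h2 : g.eval a = 1 + ϖ * h.eval a := by
          have h3 := congrArg (Polynomial.eval a) hh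
          simp only [eval_sub, eval_one, eval_mul, eval_C] at h3
          linear_combination h3
        rw [Polynomial.IsRoot.def] at hroot
        rw [hroot] at h2
        exact hϖ.not_isUnit (isUnit_of_dvd_one ⟨-h.eval a, by linear_combination (-1 : A₀) * h2⟩)
      · rintro α ⟨m, hm⟩ k
        have h2 : IsNilpotent (∑ k, (α k).eval a • v k) := by
          refine ⟨m, ?_⟩
          have h3 : (∑ k, α k • vt k) ^ m ∈ IW := Ideal.mem_span_singleton.2 hm
          have h4 := Ideal.Quotient.eq_zero_iff_mem.2 h3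
          rw [map_pow, map_sum] at h4
          rw [← h4]
          congr 1
          exact Finset.sum_congr rfl (fun k _ => by rw [hWsmul, hvt])
        exact Polynomial.dvd_iff_isRoot.2 (hvind _ h2 k)
      · have h5 : Fintype.card ι - s + 1 = ν + 1 := by omega
        rw [h5]
        exact h1
  · exact ⟨0, Fin.elim0, fun k => k.elim0, fun _ _ k => k.elim0, by simpa using hpD⟩

end Assembly

end Fermat.Agent.S18.H8
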