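/-
S18 / Program J, second core (route #1088), Leaf A: abstract **Theorem D**, final form
(statement of `H19.theoremD`, origin/helper19 Route.lean):
`H8.theoremD_of_tame` (H8/TheoremD.lean) + the tame bound `H31.tame_bound_poly`.  helper8.
-/
import Mathlib
import Fermat.Agent.S18.H8.TheoremD
import Fermat.Agent.S18.H31.TameBoundPoly

set_option autoImplicit false

open Polynomial

namespace Fermat.Agent.S18.H8

/-- **Theorem D** (abstract).  `A₀` a DVR of characteristic zero with uniformiser `ϖ`, `C'` a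
normal domain, finite and torsion-free over `A₀[X]`, such that `ϖ C'` is prime, the special
fibre is trace-separable over `k₀[X]`, and the horizontal height-one primes of `C'` away from
finitely many pairwise incongruent sections `X = a` (`a ∈ τ`) and from a polynomial `P₀` which
is a unit constant modulo `ϖ` are unramified over `A₀[X]`.  Then `C'/ϖ` is integrally closed. -/
theorem theoremD
    {A₀ : Type*} [CommRing A₀] [IsDomain A₀] [IsDiscreteValuationRing A₀] [CharZero A₀]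
    {C' : Type*} [CommRing C'] [IsDomain C'] [Algebra A₀[X] C'] [Module.Finite A₀[X] C']
    [Module.IsTorsionFree A₀[X] C'] [IsIntegrallyClosed C']
    (ϖ : A₀) (hϖ : Irreducible ϖ)
    (hdom : (Ideal.span {algebraMap A₀[X] C' (Polynomial.C ϖ)}).IsPrime)
    (hsep : ∀ c : C', (∀ c' : C', Polynomial.C ϖ ∣ Algebra.intTrace A₀[X] C' (c * c')) →
        algebraMap A₀[X] C' (Polynomial.C ϖ) ∣ c)
    (τ : Finset A₀) (hτ : ∀ a ∈ τ, ∀ b ∈ τ, a ≠ b → IsUnit (a - b))
    (P₀ : A₀[X]) (hP₀ : ∃ u : A₀, IsUnit u ∧ ∀ i, ϖ ∣ (P₀ - Polynomial.C u).coeff i)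
    (hram : ∀ (𝔮 : Ideal C') [𝔮.IsPrime], 𝔮 ≠ ⊥ →
        algebraMap A₀[X] C' (Polynomial.C ϖ) ∉ 𝔮 →
        (∀ a ∈ τ, algebraMap A₀[X] C' (X - Polynomial.C a) ∉ 𝔮) →
        algebraMap A₀[X] C' P₀ ∉ 𝔮 →
        ∃ g : A₀[X], IsLocalRing.maximalIdeal (Localization.AtPrime 𝔮) =
          Ideal.span {algebraMap C' (Localization.AtPrime 𝔮) (algebraMap A₀[X] C' g)}) :
    IsIntegrallyClosed (C' ⧸ Ideal.span {algebraMap A₀[X] C' (Polynomial.C ϖ)}) :=
  theoremD_of_tame ϖ hϖ
    (fun c hc g hg q hq hqϖ hqg s v hv =>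
      Fermat.Agent.S18.H31.tame_bound_poly ϖ hϖ c hc g hg q hq hqϖ hqg s v hv)
    hdom hsep τ hτ P₀ hP₀ hram

end Fermat.Agent.S18.H8
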