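/-
S18 / Program J, core 2, leaf K2-N (`exists_descent`, reports #1324, #1509): DEFINITIONS of the
sub-skeleton (helper8).

`GoodPair x K₀ F₀ θ`: the pair of subfields `K₀ ⊆ K`, `F₀ ⊆ F` is adapted to the base function `x`
and to the `K(x)`-basis `θ` of `F`:  `x, θ i ∈ F₀` and `F₀ = ⊕ K₀(x) θ_i`.
-/
import Mathlib

set_option autoImplicit false

open IntermediateField

namespace Fermat.Agent.S18.H8

variable {k K : Type*} [Field k] [Field K] [Algebra k K] {F : Type*} [Field F] [Algebra K F]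

/-- `(K₀, F₀)` is a good pair for `(x, θ)`: `x ∈ F₀`, `θ i ∈ F₀`, and every element of `F₀` is a
`K₀(x)`-linear combination of the `θ i`  (`K₀(x) = K₀⟮x⟯ ⊆ F`, an intermediate field of
`F/K₀`). -/
structure GoodPair (x : F) (K₀ : IntermediateField k K) (F₀ : IntermediateField K₀ F) {μ : ℕ}
    (θ : Fin μ → F) : Prop where
  x_mem : x ∈ F₀
  theta_mem : ∀ i, θ i ∈ F₀
  coord : ∀ f ∈ F₀, ∃ r : Fin μ → K₀⟮x⟯, f = ∑ i, (r i : F) * θ i

end Fermat.Agent.S18.H8
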