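/-
S18 / Program J, core 2, leaf K2-N (`exists_descent`), sub-leaf N-GOOD (= G2 of report #1509):
existence of a good pair `(K₀, F₀)`:  for a `K(x)`-spanning family `θ` of `F` and finite sets
`T ⊆ F`, `Z ⊆ K` there is a finite `Z' ⊇ Z` such that, with `K₀ := k(Z')`, the `K₀(x)`-span of
`θ` is a subfield `F₀` of `F` containing `x`, `θ` and `T`.   helper8.
-/
import Mathlib
import Fermat.Agent.S18.H8.DescentDefs

set_option autoImplicit false

open IntermediateField Polynomial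

namespace Fermat.Agent.S18.H8

section Good

variable {k K : Type*} [Field k] [Field K] [Algebra k K] {F : Type*} [Field F] [Algebra K F]

/-- An element of `K(x)` lies in `K₀(x)` as soon as `K₀` contains finitely many coefficients. -/
theorem exists_finset_mem_adjoin (x : F) (r : F) (hr : r ∈ K⟮x⟯) :
    ∃ W : Finset K, ∀ K₀ : IntermediateField k K, (∀ w ∈ W, w ∈ K₀) → r ∈ K₀⟮x⟯ := by
  classical
  obtain ⟨P, Q, hPQ⟩ := (IntermediateField.mem_adjoin_simple_iff K r).1 hr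
  refine ⟨P.coeffs ∪ Q.coeffs, fun K₀ hW => ?_⟩
  have hlift : ∀ p : K[X], (∀ w ∈ p.coeffs, w ∈ K₀) →
      ∃ p' : (↥K₀)[X], p'.map (algebraMap K₀ K) = p := by
    intro p hp
    have : p ∈ Polynomial.lifts (algebraMap K₀ K) := by
      rw [Polynomial.lifts_iff_coeffs_subset_range]
      intro w hw
      exact ⟨⟨w, hp w hw⟩, rfl⟩
    exact this
  obtain ⟨P', hP'⟩ := hlift P (fun w hw => hW w (Finset.mem_union_left _ hw))
  obtain ⟨Q', hQ'⟩ := hlift Q (fun w hw => hW w (Finset.mem_union_right _ hw))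
  rw [IntermediateField.mem_adjoin_simple_iff]
  refine ⟨P', Q', ?_⟩
  rw [hPQ, ← hP', ← hQ', Polynomial.aeval_map_algebraMap, Polynomial.aeval_map_algebraMap]

/-- A `K(x)`-combination of `θ` is a `K₀(x)`-combination as soon as `K₀` contains finitely many
coefficients. -/
theorem exists_finset_mem_span (x : F) {μ : ℕ} (θ : Fin μ → F)
    (hθ : ∀ f : F, ∃ r : Fin μ → K⟮x⟯, f = ∑ i, (r i : F) * θ i) (f : F) :
    ∃ W : Finset K, ∀ K₀ : IntermediateField k K, (∀ w ∈ W, w ∈ K₀) →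
      f ∈ Submodule.span K₀⟮x⟯ (Set.range θ) := by
  classical
  obtain ⟨r, hr⟩ := hθ f
  choose W hW using fun i => exists_finset_mem_adjoin (k := k) x (r i : F) (r i).2
  refine ⟨Finset.univ.biUnion W, fun K₀ hK₀ => ?_⟩
  rw [hr]
  refine Submodule.sum_mem _ fun i _ => ?_
  have hi : (r i : F) ∈ K₀⟮x⟯ :=
    hW i K₀ (fun w hw => hK₀ w (Finset.mem_biUnion.2 ⟨i, Finset.mem_univ _, hw⟩))
  have : (r i : F) * θ i = (⟨(r i : F), hi⟩ : K₀⟮x⟯) • θ i := rfl
  rw [this]
  exact Submodule.smul_mem _ _ (Submodule.subset_span ⟨i, rfl⟩)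

/-- The same for finitely many elements. -/
theorem exists_finset_forall_mem_span (x : F) {μ : ℕ} (θ : Fin μ → F)
    (hθ : ∀ f : F, ∃ r : Fin μ → K⟮x⟯, f = ∑ i, (r i : F) * θ i) (T : Finset F) :
    ∃ W : Finset K, ∀ K₀ : IntermediateField k K, (∀ w ∈ W, w ∈ K₀) →
      ∀ f ∈ T, f ∈ Submodule.span K₀⟮x⟯ (Set.range θ) := by
  classical
  choose W hW using fun f : F => exists_finset_mem_span (k := k) x θ hθ f
  refine ⟨T.biUnion W, fun K₀ hK₀ f hf => ?_⟩
  exact hW f K₀ (fun w hw => hK₀ w (Finset.mem_biUnion.2 ⟨f, hf, hw⟩))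

/-- If the `E₀`-span `M` of a finite family contains `1` and is closed under products of the
generators, it is (the carrier of) an intermediate field. -/
theorem exists_intermediateField_of_span {E₀ : Type*} [Field E₀] [Algebra E₀ F] {μ : ℕ}
    (θ : Fin μ → F) (h1 : (1 : F) ∈ Submodule.span E₀ (Set.range θ))
    (hmul : ∀ i j, θ i * θ j ∈ Submodule.span E₀ (Set.range θ)) :
    ∃ F₀ : IntermediateField E₀ F, ∀ f : F, f ∈ F₀ ↔ f ∈ Submodule.span E₀ (Set.range θ) := by
  classical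
  set M := Submodule.span E₀ (Set.range θ) with hM
  have hmul' : ∀ f g : F, f ∈ M → g ∈ M → f * g ∈ M := by
    intro f g hf hg
    have h : f * g ∈ M * M := Submodule.mul_mem_mul hf hg
    rw [hM, Submodule.span_mul_span] at h
    refine Submodule.span_le.2 ?_ h
    rintro _ ⟨_, ⟨i, rfl⟩, _, ⟨j, rfl⟩, rfl⟩
    exact hmul i j
  set Salg : Subalgebra E₀ F := M.toSubalgebra h1 hmul' with hSalg
  have hmem : ∀ f : F, f ∈ Salg ↔ f ∈ M := fun f => Iff.rfl
  have hfg : (Subalgebra.toSubmodule Salg).FG := by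
    have : Subalgebra.toSubmodule Salg = M := by
      ext f
      exact hmem f
    rw [this, hM]
    exact Submodule.fg_span (Set.finite_range θ)
  have hinv : ∀ f ∈ Salg, f⁻¹ ∈ Salg := by
    intro f hf
    have hint : IsIntegral E₀ f := IsIntegral.of_mem_of_fg Salg hfg f hf
    exact Salg.inv_mem_of_algebraic (x := ⟨f, hf⟩) hint.isAlgebraic
  exact ⟨Salg.toIntermediateField hinv, fun f => Iff.rfl⟩

/-- **(N-GOOD)**  Existence of a good pair. -/
theorem exists_goodPair (x : F) {μ : ℕ} (θ : Fin μ → F)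
    (hθ : ∀ f : F, ∃ r : Fin μ → K⟮x⟯, f = ∑ i, (r i : F) * θ i)
    (T : Finset F) (Z : Finset K) :
    ∃ Z' : Finset K, Z ⊆ Z' ∧ ∃ F₀ : IntermediateField (IntermediateField.adjoin k (Z' : Set K)) F,
      GoodPair x (IntermediateField.adjoin k (Z' : Set K)) F₀ θ ∧ ∀ t ∈ T, t ∈ F₀ := by
  classical
  -- the finitely many elements whose coordinates must be rational over `K₀`
  set T' : Finset F := insert 1 (T ∪ (Finset.univ.image fun ij : Fin μ × Fin μ => θ ij.1 * θ ij.2))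
    with hT'
  obtain ⟨W, hW⟩ := exists_finset_forall_mem_span (k := k) x θ hθ T'
  refine ⟨Z ∪ W, Finset.subset_union_left, ?_⟩
  set K₀ : IntermediateField k K := IntermediateField.adjoin k ((Z ∪ W : Finset K) : Set K) with hK₀
  have hWK₀ : ∀ w ∈ W, w ∈ K₀ := fun w hw =>
    IntermediateField.subset_adjoin k _ (Finset.mem_coe.2 (Finset.mem_union_right _ hw))
  have hspan := hW K₀ hWK₀
  have h1 : (1 : F) ∈ Submodule.span K₀⟮x⟯ (Set.range θ) :=
    hspan 1 (Finset.mem_insert_self _ _)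
  have hmul : ∀ i j, θ i * θ j ∈ Submodule.span K₀⟮x⟯ (Set.range θ) := fun i j =>
    hspan _ (Finset.mem_insert_of_mem (Finset.mem_union_right _
      (Finset.mem_image.2 ⟨(i, j), Finset.mem_univ _, rfl⟩)))
  have hT : ∀ t ∈ T, t ∈ Submodule.span K₀⟮x⟯ (Set.range θ) := fun t ht =>
    hspan t (Finset.mem_insert_of_mem (Finset.mem_union_left _ ht))
  obtain ⟨F₀', hF₀'⟩ := exists_intermediateField_of_span (E₀ := K₀⟮x⟯) θ h1 hmul
  refine ⟨F₀'.restrictScalars K₀, ⟨?_, ?_, ?_⟩, ?_⟩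
  · -- `x ∈ F₀`
    have := F₀'.algebraMap_mem (⟨x, IntermediateField.mem_adjoin_simple_self K₀ x⟩ : K₀⟮x⟯)
    exact this
  · intro i
    exact (hF₀' (θ i)).2 (Submodule.subset_span ⟨i, rfl⟩)
  · intro f hf
    have hf' : f ∈ Submodule.span K₀⟮x⟯ (Set.range θ) := (hF₀' f).1 hf
    obtain ⟨c, hc⟩ := (Submodule.mem_span_range_iff_exists_fun K₀⟮x⟯).1 hf'
    exact ⟨c, hc.symm⟩
  · intro t ht
    exact (hF₀' t).2 (hT t ht)

end Good

end Fermat.Agent.S18.H8
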