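/-
S18 / Program J, core 2, leaf K2-N: **descent of the setup to a number field**
(`exists_descent`, statement VERBATIM from helper19's `Core2.lean`; reports #1324, #1509, #1633).

Assembly (helper8) of the landed leaves:
  H21 (N-MEM, N-GAUSS, N-TR, `A ∩ K₀` is a DVR), H67 (N-SCALE, N-CONST), H72 (N-CONST0),
  H78 (N-BASIS, `dsetup_inv`), H61 (places package: branch for `x`, `x⁻¹`, and `hdiv`),
  H8 (N-GOOD: existence of a good pair).
-/
import Mathlib
import Fermat.Agent.S18.H74.Setup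
import Fermat.Agent.S18.H19.Core2Defs
import Fermat.Agent.S18.H78.DSetupInv
import Fermat.Agent.S18.H64.SetupInv
import Fermat.Agent.S18.H21.ComapDVR
import Fermat.Agent.S18.H21.DescLeaves
import Fermat.Agent.S18.H67.DescScale
import Fermat.Agent.S18.H67.DescConst
import Fermat.Agent.S18.H72.DescConstNF
import Fermat.Agent.S18.H61.DescPlaces
import Fermat.Agent.S18.H80.OfSetup
import Fermat.Agent.S18.H8.DescentDefs
import Fermat.Agent.S18.H8.GoodPair
import Fermat.Agent.S18.H78.DescBasis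

set_option autoImplicit false

open AlgebraicCurve IntermediateField Polynomial

noncomputable section

namespace Fermat.Agent.S18.H8

open Fermat.Agent.S18.H74 Fermat.Agent.S18.H19

section Leaves

variable {k K : Type*} [Field k] [Field K] [Algebra k K]
  (A : ValuationSubring K) {F : Type*} [Field F] [Algebra K F] (O : ValuationSubring F)
  (K₀ : IntermediateField k K) (F₀ : IntermediateField K₀ F) (x : F)

/-- Bridge: in a good pair the coordinates of the elements of `F₀` in the orthonormal basis are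
`K₀`-rational (in the sense of `H72.RatCoord`). -/
theorem ratCoord_of_goodPair {μ : ℕ} {θ : Fin μ → F} (D : Fermat.Agent.S18.H80.ResData A O x θ)
    (hG : GoodPair x K₀ F₀ θ) (f : F) (hf : f ∈ F₀) :
    Fermat.Agent.S18.H72.RatCoord D K₀.toSubfield f := by
  classical
  obtain ⟨r, hr⟩ := hG.coord f hf
  have hmemK : ∀ j, (r j : F) ∈ K⟮x⟯ := by
    intro j
    obtain ⟨P', Q', hPQ⟩ := (IntermediateField.mem_adjoin_simple_iff K₀ ((r j : F))).1 (r j).2
    rw [IntermediateField.mem_adjoin_simple_iff]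
    refine ⟨P'.map (algebraMap K₀ K), Q'.map (algebraMap K₀ K), ?_⟩
    rw [hPQ, Polynomial.aeval_map_algebraMap, Polynomial.aeval_map_algebraMap]
  intro i
  have hrepr : ((D.basisF.repr f i : K⟮x⟯) : F) = (r i : F) := by
    have h := D.repr_sum (fun j => (⟨(r j : F), hmemK j⟩ : K⟮x⟯)) i
    have e : (∑ j, (((fun j => (⟨(r j : F), hmemK j⟩ : K⟮x⟯)) j : K⟮x⟯) : F) * θ j) = f := hr.symm
    rw [e] at h
    rw [h]
  obtain ⟨P', Q', hPQ⟩ := (IntermediateField.mem_adjoin_simple_iff K₀ ((r i : F))).1 (r i).2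
  by_cases hQ : aeval x Q' = 0
  · refine ⟨0, 1, fun j => by simp, fun j => ?_, one_ne_zero, ?_⟩
    · rw [Polynomial.coeff_one]
      split_ifs
      · exact K₀.toSubfield.one_mem
      · exact K₀.toSubfield.zero_mem
    · rw [hrepr, hPQ, hQ, div_zero]
      simp
  · refine ⟨P'.map (algebraMap K₀ K), Q'.map (algebraMap K₀ K), fun j => ?_, fun j => ?_, ?_, ?_⟩
    · rw [Polynomial.coeff_map]
      exact (P'.coeff j).2
    · rw [Polynomial.coeff_map]
      exact (Q'.coeff j).2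
    · intro h0
      apply hQ
      rw [← Polynomial.aeval_map_algebraMap K, h0, map_zero]
    · rw [hrepr, hPQ, Polynomial.aeval_map_algebraMap, Polynomial.aeval_map_algebraMap]
      field_simp

end Leaves

/-! ### Assembly -/

local notation "Qb" => AlgebraicClosure ℚ

/-- **Descent** (K2-N), statement VERBATIM from helper19's `Core2.lean`. -/
theorem exists_descent (A : ValuationSubring Qb) (hA : A ≠ ⊤) {F : Type} [Field F]
    [Algebra Qb F] (O : ValuationSubring F) (x : F) (hx : Transcendental Qb x)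
    (hS : Setup Qb A F O x) (p : ℕ) (hp : p.Prime) (u : F) (hu : u - 1 ∈ O.nonunits)
    (hord : ∀ P : Place Qb F, (p : ℤ) ∣ P.ord u) :
    ∃ (K₀ : IntermediateField ℚ Qb) (F₀ : IntermediateField K₀ F) (hx₀ : x ∈ F₀) (hu₀ : u ∈ F₀),
      IsDiscreteValuationRing ↥(A.comap (algebraMap K₀ Qb)) ∧
      letI := algComap (A.comap (algebraMap K₀ Qb)) F₀
      DSetup ↥(A.comap (algebraMap K₀ Qb)) (O.comap (algebraMap F₀ F)) (⟨x, hx₀⟩ : F₀) ∧
      DSetup ↥(A.comap (algebraMap K₀ Qb)) (O.comap (algebraMap F₀ F)) (⟨x, hx₀⟩ : F₀)⁻¹ ∧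
      (⟨u, hu₀⟩ : F₀) - 1 ∈ (O.comap (algebraMap F₀ F)).nonunits ∧
      ∀ V : ValuationSubring F₀,
        (∀ a : ↥(A.comap (algebraMap K₀ Qb)), a ≠ 0 →
          (algebraMap ↥(A.comap (algebraMap K₀ Qb)) F₀ a)⁻¹ ∈ V) →
        IsDiscreteValuationRing V →
        ∃ t : F₀, t ≠ 0 ∧ (⟨u, hu₀⟩ : F₀) / t ^ p ∈ V ∧ ((⟨u, hu₀⟩ : F₀) / t ^ p)⁻¹ ∈ V := by
  classical
  have _hp := hp
  have hfin : FiniteDimensional Qb⟮x⟯ F := hS.finite
  have halg : Algebra.IsAlgebraic ℚ Qb := AlgebraicClosure.isAlgebraic ℚ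
  -- the data of the setup
  obtain ⟨θ, horth, hgram⟩ := hS.basis
  have hD0 := Fermat.Agent.S18.H80.resData_of_setup hA hS θ horth hgram
  have hθ : ∀ f : F, ∃ r : Fin (Module.finrank Qb⟮x⟯ F) → Qb⟮x⟯, f = ∑ i, (r i : F) * θ i :=
    fun f => ⟨fun i => hD0.basisF.repr f i, (hD0.sum_repr f).symm⟩
  -- the place-theoretic half (helper61)
  obtain ⟨S₁, T, hpl⟩ := Fermat.Agent.S18.H61.exists_places_package (k := ℚ) A x hx
    hS.branch hS.branch_inv
  -- the good pair
  obtain ⟨Z, hZ, F₀, hG, hTF₀⟩ := exists_goodPair (k := ℚ) x θ hθ (insert u T) S₁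
  have hfdK₀ : FiniteDimensional ℚ (IntermediateField.adjoin ℚ (Z : Set Qb)) :=
    Fermat.Agent.S18.H21.finiteDimensional_adjoin_finset Z
  have hS₁K₀ : ∀ c ∈ S₁, c ∈ IntermediateField.adjoin ℚ (Z : Set Qb) := fun c hc =>
    IntermediateField.subset_adjoin ℚ _ (hZ hc)
  have hu₀ : u ∈ F₀ := hTF₀ u (Finset.mem_insert_self _ _)
  refine ⟨IntermediateField.adjoin ℚ (Z : Set Qb), F₀, hG.x_mem, hu₀,
    Fermat.Agent.S18.H21.isDiscreteValuationRing_comap_qbar A hA _, ?_⟩
  let _ := algComap (A.comap (algebraMap (IntermediateField.adjoin ℚ (Z : Set Qb)) Qb)) F₀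
  obtain ⟨hbr, hbr', hdiv⟩ := hpl (IntermediateField.adjoin ℚ (Z : Set Qb)) F₀ hG.x_mem hS₁K₀
    (fun t ht => hTF₀ t (Finset.mem_insert_of_mem ht))
  have hD : DSetup ↥(A.comap (algebraMap (IntermediateField.adjoin ℚ (Z : Set Qb)) Qb))
      (O.comap (algebraMap F₀ F)) (⟨x, hG.x_mem⟩ : F₀) :=
    { mem_iff := Fermat.Agent.S18.H21.dsetup_mem_iff A O _ F₀ hS.mem_iff
      gauss := Fermat.Agent.S18.H21.dsetup_gauss A O _ F₀ x hG.x_mem hS.gauss
      scale := Fermat.Agent.S18.H67.dsetup_scale A O _ F₀ x hA hS θ horth hgram hG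
      transc := Fermat.Agent.S18.H21.dsetup_transc A _ F₀ x hG.x_mem hx
      finite := (Fermat.Agent.S18.H78.dsetup_finite_basis A O _ F₀ x hG.x_mem hA hS θ horth hgram hG).1
      basis := (Fermat.Agent.S18.H78.dsetup_finite_basis A O _ F₀ x hG.x_mem hA hS θ horth hgram hG).2
      branch := hbr
      const := Fermat.Agent.S18.H67.dsetup_const A O _ F₀ x hA hS θ horth hgram hG
      const₀ := Fermat.Agent.S18.H72.dsetup_const₀ A O hD0 _ F₀
        (fun f => ratCoord_of_goodPair A O _ F₀ x hD0 hG (f : F) f.2) }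
  refine ⟨hD, ?_, ?_, ?_⟩
  · exact Fermat.Agent.S18.H78.dsetup_inv _ _ hD hbr'
  · rw [ValuationSubring.mem_nonunits_iff_or] at hu ⊢
    rcases hu with h | h
    · left
      exact Subtype.ext h
    · right
      intro hmem
      exact h hmem
  · exact hdiv p ⟨u, hu₀⟩ hord

end Fermat.Agent.S18.H8
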